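import Fermat.Agent.Deuring.Main
import Fermat.Agent.FunField.DegreeFormula
import Fermat.Prelude.Def_AlgebraicCurve_BaseChangeGalois

/-!
# Uniqueness, surjectivity and equivariance of the reduction map on places
-/

set_option autoImplicit false

noncomputable section

open AlgebraicCurve Module

namespace Fermat.Agent.Deuring

open Fermat.Agent.FunField Fermat.Agent.FunField.PlaceLemmas

section General

theorem mapDomain_nonneg {α β : Type*} (r : α → β) {D : α →₀ ℤ} (hD : 0 ≤ D) :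
    0 ≤ Finsupp.mapDomain r D := by
  classical
  rw [Finsupp.le_def]
  intro b
  rw [Finsupp.zero_apply, Finsupp.mapDomain, Finsupp.sum_apply, Finsupp.sum]
  refine Finset.sum_nonneg fun a _ => ?_
  have := Finsupp.le_def.mp hD a
  rw [Finsupp.zero_apply] at this
  rw [Finsupp.single_apply]
  split_ifs
  · exact this
  · exact le_rfl

theorem mapDomain_mono {α β : Type*} (r : α → β) {D E : α →₀ ℤ} (h : D ≤ E) :
    Finsupp.mapDomain r D ≤ Finsupp.mapDomain r E := by
  have h1 := mapDomain_nonneg r (sub_nonneg.mpr h)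
  have h2 : Finsupp.mapDomain r E = Finsupp.mapDomain r (E - D) + Finsupp.mapDomain r D := by
    rw [← Finsupp.mapDomain_add, sub_add_cancel]
  rw [h2]
  exact le_add_of_nonneg_left h1

/-- `-D ≤ div f` for a nonzero function in `L(D)`. -/
theorem neg_le_dv {K F : Type*} [Field K] [Field F] [Algebra K F] [HasPrincipalDivisors K F]
    {D : Divisor K F} {f : F} (hf0 : f ≠ 0) (hf : f ∈ riemannRochSpace D) :
    -D ≤ dv (K := K) f hf0 := by
  rw [Finsupp.le_def]
  intro v
  rw [dv_apply, Finsupp.neg_apply]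
  exact (mem_rr_of_ne hf0).mp hf v

theorem mem_rr_of_neg_le_dv {K F : Type*} [Field K] [Field F] [Algebra K F]
    [HasPrincipalDivisors K F] {D : Divisor K F} {f : F} (hf0 : f ≠ 0)
    (h : -D ≤ dv (K := K) f hf0) : f ∈ riemannRochSpace D := by
  rw [mem_rr_of_ne hf0]
  intro v
  have := Finsupp.le_def.mp h v
  rwa [dv_apply, Finsupp.neg_apply] at this

end General

variable {L k F F₁ : Type*} [Field L] [Field k] [Field F] [Field F₁] [Algebra L F] [Algebra k F₁]

namespace Data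

/-- `r` is compatible with divisors of functions. -/
structure IsRed (𝔇 : Data L k F F₁) (r : Place L F → Place k F₁) : Prop where
  div : ∀ f : 𝔇.O, 𝔇.res f ≠ 0 → ∀ G : Divisor L F, (∀ P, G P = P.ord (f : F)) →
    ∀ Q, Finsupp.mapDomain r G Q = Q.ord (𝔇.res f)

/-- `r` is compatible with divisors of functions and Riemann-Roch spaces in large degree. -/
structure IsFullRed (𝔇 : Data L k F F₁) (r : Place L F → Place k F₁) : Prop
    extends 𝔇.IsRed r where
  rr : ∃ c : ℤ, ∀ E : Divisor L F, c ≤ Divisor.degree E →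
    𝔇.red (riemannRochSpace E) = riemannRochSpace (Finsupp.mapDomain r E)

theorem exists_isFullRed (𝔇 : Data L k F F₁) [IsFF L F] [IsFF k F₁] [HasPrincipalDivisors L F]
    [HasPrincipalDivisors k F₁] [IsAlgClosed k] [IsAlgClosed L] {g : ℤ} (hRR : RRLarge L F g)
    (hRR₁ : RRLarge k F₁ g) : ∃ r, 𝔇.IsFullRed r := by
  obtain ⟨r, h1, h2⟩ := 𝔇.exists_reduction hRR hRR₁
  exact ⟨r, ⟨⟨h1⟩, h2⟩⟩

variable {𝔇 : Data L k F F₁} {r r' : Place L F → Place k F₁}

namespace IsRed

theorem mapDomain_dv [HasPrincipalDivisors L F] [HasPrincipalDivisors k F₁] (h : 𝔇.IsRed r)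
    {f : 𝔇.O} (hf : 𝔇.res f ≠ 0) :
    Finsupp.mapDomain r (dv (K := L) (f : F) (𝔇.coe_ne_zero_of_res_ne_zero hf))
      = dv (K := k) (𝔇.res f) hf := by
  ext Q
  rw [h.div f hf _ (fun P => dv_apply _ P), dv_apply]

theorem red_le [HasPrincipalDivisors L F] [HasPrincipalDivisors k F₁] (h : 𝔇.IsRed r)
    (E : Divisor L F) : 𝔇.red (riemannRochSpace E) ≤ riemannRochSpace (Finsupp.mapDomain r E) := by
  rintro _ ⟨f, hf, rfl⟩
  by_cases h0 : 𝔇.res f = 0
  · rw [h0]; exact Submodule.zero_mem _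
  · have hf0 := 𝔇.coe_ne_zero_of_res_ne_zero h0
    apply mem_rr_of_neg_le_dv h0
    rw [← h.mapDomain_dv h0]
    have h1 := mapDomain_mono r (neg_le_dv hf0 hf)
    refine le_trans (le_of_eq ?_) h1
    have h2 : Finsupp.mapDomain r (-E) + Finsupp.mapDomain r E = 0 := by
      rw [← Finsupp.mapDomain_add, neg_add_cancel, Finsupp.mapDomain_zero]
    exact (eq_neg_of_add_eq_zero_left h2).symm

variable [IsFF L F] [IsFF k F₁] [HasPrincipalDivisors L F]
  [HasPrincipalDivisors k F₁] [IsAlgClosed k] [IsAlgClosed L]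

omit [IsFF L F] [IsFF k F₁] [IsAlgClosed L] [IsAlgClosed k] [HasPrincipalDivisors k F₁] in
theorem surjective (h : 𝔇.IsRed r) : Function.Surjective r := by
  classical
  intro Q
  obtain ⟨t, ht0, ht⟩ := exists_ord_eq_one Q
  obtain ⟨f, rfl⟩ := 𝔇.res_surj t
  have h1 := h.div f ht0 _ (fun P => dv_apply (𝔇.coe_ne_zero_of_res_ne_zero ht0) P) Q
  rw [ht] at h1
  have h2 : Q ∈ (Finsupp.mapDomain r
      (dv (K := L) (f : F) (𝔇.coe_ne_zero_of_res_ne_zero ht0))).support := by
    rw [Finsupp.mem_support_iff, h1]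
    exact one_ne_zero
  have h3 := Finsupp.mapDomain_support h2
  obtain ⟨P, -, hP⟩ := Finset.mem_image.mp h3
  exact ⟨P, hP⟩

/-- The reduction map on places is unique. -/
theorem eq {g : ℤ} (hRR : RRLarge L F g) (h : 𝔇.IsRed r) (h' : 𝔇.IsRed r') : r = r' := by
  classical
  funext P
  by_contra hne
  obtain ⟨c, hc⟩ := hRR
  obtain ⟨n, hn⟩ : ∃ n : ℕ, max c (g + 1) ≤ n := ⟨(max c (g + 1)).toNat, Int.self_le_toNat _⟩
  have hdeg : Divisor.degree (Finsupp.single P (n : ℤ)) = n := by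
    rw [Divisor.degree_single, deg_eq_one P, Nat.cast_one, mul_one]
  obtain ⟨hfd, hrk⟩ := hc (Finsupp.single P (n : ℤ)) (by rw [hdeg]; exact (le_max_left _ _).trans hn)
  rw [hdeg] at hrk
  have h1 := h.red_le (Finsupp.single P (n : ℤ))
  have h2 := h'.red_le (Finsupp.single P (n : ℤ))
  rw [Finsupp.mapDomain_single] at h1 h2
  have h3 : 𝔇.red (riemannRochSpace (Finsupp.single P (n : ℤ)))
      ≤ riemannRochSpace (0 : Divisor k F₁) := by
    intro x hx
    by_cases hx0 : x = 0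
    · rw [hx0]; exact Submodule.zero_mem _
    have e1 := (mem_rr_of_ne hx0).mp (h1 hx)
    have e2 := (mem_rr_of_ne hx0).mp (h2 hx)
    rw [mem_rr_of_ne hx0]
    intro Q
    rw [Finsupp.zero_apply, neg_zero]
    by_cases hQ : Q = r P
    · have hQ' : Q ≠ r' P := fun h => hne (hQ ▸ h)
      have := e2 Q
      rwa [Finsupp.single_eq_of_ne hQ', neg_zero] at this
    · have := e1 Q
      rwa [Finsupp.single_eq_of_ne hQ, neg_zero] at this
  have h4 := Submodule.finrank_mono h3
  rw [finrank_rr_zero, 𝔇.finrank_red] at h4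
  have h5 : g + 1 ≤ (n : ℤ) := (le_max_right _ _).trans hn
  omega

/-- Equivariance under semilinear automorphisms preserving `O`. -/
theorem smul {g : ℤ} (hRR : RRLarge L F g) (h : 𝔇.IsRed r) (σ : SemilinearAut L F)
    (σ₁ : SemilinearAut k F₁) (hO : ∀ f ∈ 𝔇.O, σ • f ∈ 𝔇.O)
    (hres : ∀ f : 𝔇.O, 𝔇.res ⟨σ • (f : F), hO _ f.2⟩ = σ₁ • 𝔇.res f) (P : Place L F) :
    r (σ • P) = σ₁ • r P := by
  have h' : 𝔇.IsRed (fun P => σ₁⁻¹ • r (σ • P)) := by
    constructor
    intro f hf G hG Q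
    have h1 : Finsupp.mapDomain (fun P => σ₁⁻¹ • r (σ • P)) G
        = σ₁⁻¹ • Finsupp.mapDomain r (σ • G) := by
      rw [SemilinearAut.divisor_smul_def, SemilinearAut.divisor_smul_def,
        ← Finsupp.mapDomain_comp, ← Finsupp.mapDomain_comp]
      rfl
    have hf' : 𝔇.res ⟨σ • (f : F), hO _ f.2⟩ ≠ 0 := by
      rw [hres, Ne, smul_eq_zero_iff_eq]
      exact hf
    rw [h1, SemilinearAut.divisor_smul_apply, inv_inv,
      h.div ⟨σ • (f : F), hO _ f.2⟩ hf' (σ • G), hres, SemilinearAut.ord_smul]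
    intro P
    rw [SemilinearAut.divisor_smul_apply, hG]
    have := SemilinearAut.ord_smul σ (σ⁻¹ • P) (f : F)
    rw [smul_inv_smul] at this
    exact this.symm
  have : r P = σ₁⁻¹ • r (σ • P) := congrFun (h.eq hRR h') P
  rw [this, smul_inv_smul]

end IsRed

end Data

end Fermat.Agent.Deuring
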