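import Fermat.Agent.Deuring.Degree
import Fermat.Prelude.Def_AlgebraicCurve_IsCurveOver

/-!
# The Deuring reduction theorem

Given reduction data with Riemann–Roch in large degree with the same genus on both sides, there
is a reduction map on places, compatible with divisors of functions and with Riemann–Roch spaces
of large degree.
-/

set_option autoImplicit false

noncomputable section

open AlgebraicCurve Module IntermediateField

namespace Fermat.Agent.Deuring

open Fermat.Agent.FunField Fermat.Agent.FunField.PlaceLemmas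

section General

variable {K F : Type*} [Field K] [Field F] [Algebra K F]

theorem deg_eq_one [IsFF K F] [IsAlgClosed K] (v : Place K F) : v.deg = 1 := by
  have := finite_residueField v
  exact v.deg_eq_one_of_isAlgClosed_of_finite

theorem eq_zero_of_degree_le_zero [IsFF K F] {D : Divisor K F} (hD : 0 ≤ D)
    (h : Divisor.degree D ≤ 0) : D = 0 := by
  by_contra hne
  have hS : D.support.Nonempty := by
    rw [Finset.nonempty_iff_ne_empty, Ne, Finsupp.support_eq_empty]
    exact hne
  have hpos : 0 < Divisor.degree D := by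
    rw [degree_eq_sum]
    refine Finset.sum_pos (fun v hv => ?_) hS
    have h1 := Finsupp.le_def.mp hD v
    rw [Finsupp.zero_apply] at h1
    have h2 : 0 < D v := lt_of_le_of_ne h1 (Ne.symm (Finsupp.mem_support_iff.mp hv))
    have h3 : (0 : ℤ) < v.deg := by exact_mod_cast deg_pos v
    exact mul_pos h2 h3
  omega

theorem eq_of_le_of_degree_le [IsFF K F] {D D' : Divisor K F} (hD : D ≤ D')
    (h : Divisor.degree D' ≤ Divisor.degree D) : D = D' := by
  have h1 := eq_zero_of_degree_le_zero (sub_nonneg.mpr hD) (by rw [map_sub]; omega)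
  exact (sub_eq_zero.mp h1).symm

theorem single_nonneg (v : Place K F) {n : ℤ} (hn : 0 ≤ n) :
    (0 : Divisor K F) ≤ Finsupp.single v n := by
  classical
  rw [Finsupp.le_def]
  intro w
  rw [Finsupp.zero_apply, Finsupp.single_apply]
  split_ifs
  · exact hn
  · exact le_rfl

theorem eq_single_of_degree_eq_one [IsFF K F] {D : Divisor K F} (hD : 0 ≤ D)
    (h : Divisor.degree D = 1) : ∃ v, D = Finsupp.single v 1 := by
  classical
  have hne : D ≠ 0 := by
    rintro rfl
    rw [map_zero] at h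
    exact zero_ne_one h
  have hS : D.support.Nonempty := by
    rw [Finset.nonempty_iff_ne_empty, Ne, Finsupp.support_eq_empty]
    exact hne
  obtain ⟨v, hv⟩ := hS
  have h1 := Finsupp.le_def.mp hD v
  rw [Finsupp.zero_apply] at h1
  have h2 : 0 < D v := lt_of_le_of_ne h1 (Ne.symm (Finsupp.mem_support_iff.mp hv))
  have hle : Finsupp.single v 1 ≤ D := by
    rw [Finsupp.le_def]
    intro w
    rw [Finsupp.single_apply]
    split_ifs with hw
    · rw [← hw]; omega
    · have := Finsupp.le_def.mp hD w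
      rwa [Finsupp.zero_apply] at this
  refine ⟨v, (eq_of_le_of_degree_le hle ?_).symm⟩
  rw [Divisor.degree_single, h, one_mul]
  exact_mod_cast deg_pos v

end General

variable {L k F F₁ : Type*} [Field L] [Field k] [Field F] [Field F₁] [Algebra L F] [Algebra k F₁]

namespace Data

variable (𝔇 : Data L k F F₁)

theorem isUnit_of_res_ne_zero {f : 𝔇.O} (hf : 𝔇.res f ≠ 0) : IsUnit f := by
  by_contra h
  exact hf ((𝔇.res_ker f).mpr h)

theorem coe_ne_zero_of_res_ne_zero {f : 𝔇.O} (hf : 𝔇.res f ≠ 0) : (f : F) ≠ 0 := by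
  intro h
  have : f = 0 := Subtype.ext h
  rw [this, map_zero] at hf
  exact hf rfl

/-- reduction of Riemann–Roch spaces under multiplication by a unit of `O`. -/
theorem mem_red_mul {f : 𝔇.O} (hf : 𝔇.res f ≠ 0) {D G : Divisor L F}
    (hG : ∀ v, G v = v.ord (f : F)) (x : F₁) :
    x ∈ 𝔇.red (riemannRochSpace D) ↔
      ∃ y ∈ 𝔇.red (riemannRochSpace (D + G)), x = 𝔇.res f * y := by
  have hf0 := 𝔇.coe_ne_zero_of_res_ne_zero hf
  obtain ⟨u, hu⟩ := (𝔇.isUnit_of_res_ne_zero hf).exists_right_inv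
  constructor
  · rintro ⟨h, hh, rfl⟩
    refine ⟨𝔇.res (u * h), ⟨u * h, ?_, rfl⟩, ?_⟩
    · rw [← mul_mem_rr_iff hf0 hG]
      have : (f : F) * ((u * h : 𝔇.O) : F) = ((f * u) * h : 𝔇.O) := by
        push_cast; ring
      rw [this, hu, one_mul]
      exact hh
    · rw [← map_mul, ← mul_assoc, hu, one_mul]
  · rintro ⟨y, ⟨h, hh, rfl⟩, rfl⟩
    refine ⟨f * h, ?_, map_mul _ _ _⟩
    push_cast
    rw [mul_mem_rr_iff hf0 hG]
    exact hh

variable [IsFF L F] [IsFF k F₁] [HasPrincipalDivisors L F] [HasPrincipalDivisors k F₁]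
  [IsAlgClosed k]

/-- The effective case: comparison of dimensions. -/
theorem exists_bar_effective_aux {g g₁ : ℤ} (hRR : RRLarge L F g) (hRR₁ : RRLarge k F₁ g₁) :
    ∃ c : ℤ, ∀ E : Divisor L F, 0 ≤ E → c ≤ Divisor.degree E →
      ∃ D, IsPoleDiv (𝔇.red (riemannRochSpace E)) D ∧ Divisor.degree D ≤ Divisor.degree E ∧
        FiniteDimensional k (riemannRochSpace D) ∧
        (finrank k (riemannRochSpace D) : ℤ) = Divisor.degree D + 1 - g₁ ∧
        (finrank k (𝔇.red (riemannRochSpace E)) : ℤ) = Divisor.degree E + 1 - g := by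
  have hRR' := hRR
  obtain ⟨c₀, hc₀⟩ := hRR'
  obtain ⟨c₁, hc₁⟩ := hRR₁
  refine ⟨max c₀ (max (c₁ + 1 + g - g₁) g), fun E hE hdeg => ?_⟩
  have h0 : c₀ ≤ Divisor.degree E := (le_max_left _ _).trans hdeg
  have h1 : c₁ + 1 + g - g₁ ≤ Divisor.degree E :=
    ((le_max_left _ _).trans (le_max_right _ _)).trans hdeg
  have h2 : g ≤ Divisor.degree E :=
    ((le_max_right _ _).trans (le_max_right _ _)).trans hdeg
  obtain ⟨hfd, hrk⟩ := hc₀ E h0
  have hred : (finrank k (𝔇.red (riemannRochSpace E)) : ℤ) = Divisor.degree E + 1 - g := by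
    rw [𝔇.finrank_red]; exact hrk
  have hne : 𝔇.red (riemannRochSpace E) ≠ ⊥ := by
    intro h
    rw [h, finrank_bot] at hred
    push_cast at hred
    omega
  obtain ⟨D, hD⟩ := IsPoleDiv.exists_isPoleDiv _ hne
  have hle := 𝔇.degree_le hRR hE hD
  have hc₁D : c₁ ≤ Divisor.degree D := by
    by_contra hlt
    push Not at hlt
    obtain ⟨v₁⟩ := exists_place (K := k) (F := F₁)
    obtain ⟨n, hn⟩ := Int.eq_ofNat_of_zero_le (sub_nonneg.mpr hlt.le)
    have hDle : D ≤ D + Finsupp.single v₁ (n : ℤ) :=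
      le_add_of_nonneg_right (single_nonneg v₁ (Int.natCast_nonneg n))
    have hdegD' : Divisor.degree (D + Finsupp.single v₁ (n : ℤ)) = c₁ := by
      rw [map_add, Divisor.degree_single, deg_eq_one v₁]
      push_cast
      omega
    obtain ⟨hfd', hrk'⟩ := hc₁ _ hdegD'.ge
    have h3 := Submodule.finrank_mono (hD.le.trans (rr_mono hDle))
    have h4 : (finrank k (𝔇.red (riemannRochSpace E)) : ℤ) ≤
        finrank k (riemannRochSpace (D + Finsupp.single v₁ (n : ℤ))) := by exact_mod_cast h3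
    rw [hred, hrk', hdegD'] at h4
    omega
  obtain ⟨hfd', hrk'⟩ := hc₁ D hc₁D
  exact ⟨D, hD, hle, hfd', hrk', hred⟩

include 𝔇 in
/-- **Deuring's inequality**: the genus does not increase under reduction. -/
theorem genus_le {g g₁ : ℤ} (hRR : RRLarge L F g) (hRR₁ : RRLarge k F₁ g₁) : g₁ ≤ g := by
  obtain ⟨c, hc⟩ := 𝔇.exists_bar_effective_aux hRR hRR₁
  obtain ⟨E, hE0, hEc, -⟩ := exists_bound (K := L) (F := F) (ι := Fin 0) (fun i => i.elim0) c
  obtain ⟨D, hD, hle, hfd, hrk, hred⟩ := hc E hE0 hEc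
  have h3 := Submodule.finrank_mono hD.le
  have h4 : (finrank k (𝔇.red (riemannRochSpace E)) : ℤ) ≤
      finrank k (riemannRochSpace D) := by exact_mod_cast h3
  rw [hred, hrk] at h4
  omega

variable {g : ℤ} (hRR : RRLarge L F g) (hRR₁ : RRLarge k F₁ g)
include hRR hRR₁

theorem exists_bar_effective :
    ∃ c : ℤ, ∀ E : Divisor L F, 0 ≤ E → c ≤ Divisor.degree E →
      ∃ D, IsPoleDiv (𝔇.red (riemannRochSpace E)) D ∧ Divisor.degree D = Divisor.degree E ∧
        𝔇.red (riemannRochSpace E) = riemannRochSpace D := by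
  obtain ⟨c, hc⟩ := 𝔇.exists_bar_effective_aux hRR hRR₁
  refine ⟨c, fun E hE0 hEc => ?_⟩
  obtain ⟨D, hD, hle, hfd, hrk, hred⟩ := hc E hE0 hEc
  have h3 := Submodule.finrank_mono hD.le
  have h4 : (finrank k (𝔇.red (riemannRochSpace E)) : ℤ) ≤
      finrank k (riemannRochSpace D) := by exact_mod_cast h3
  rw [hred, hrk] at h4
  have hdeg : Divisor.degree D = Divisor.degree E := by omega
  refine ⟨D, hD, hdeg, Submodule.eq_of_le_of_finrank_eq hD.le ?_⟩
  have : (finrank k (𝔇.red (riemannRochSpace E)) : ℤ) = finrank k (riemannRochSpace D) := by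
    rw [hred, hrk, hdeg]
  exact_mod_cast this

theorem exists_bar :
    ∃ c : ℤ, ∀ E : Divisor L F, c ≤ Divisor.degree E →
      ∃ D, IsPoleDiv (𝔇.red (riemannRochSpace E)) D ∧ Divisor.degree D = Divisor.degree E ∧
        𝔇.red (riemannRochSpace E) = riemannRochSpace D := by
  obtain ⟨c, hc⟩ := 𝔇.exists_bar_effective hRR hRR₁
  have hRR' := hRR
  obtain ⟨c₀, hc₀⟩ := hRR'
  refine ⟨max c (max c₀ g), fun E hdeg => ?_⟩
  have h0 : c ≤ Divisor.degree E := (le_max_left _ _).trans hdeg
  have h1 : c₀ ≤ Divisor.degree E := ((le_max_left _ _).trans (le_max_right _ _)).trans hdeg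
  have h2 : g ≤ Divisor.degree E := ((le_max_right _ _).trans (le_max_right _ _)).trans hdeg
  obtain ⟨hfd, hrk⟩ := hc₀ E h1
  have hne : riemannRochSpace E ≠ ⊥ := by
    intro h
    rw [h, finrank_bot] at hrk
    push_cast at hrk
    omega
  obtain ⟨f₀, hf₀, hf₀0⟩ := Submodule.exists_mem_ne_zero_of_ne_bot hne
  obtain ⟨a, ha0, haO, hres⟩ := 𝔇.exists_smul_res_ne_zero hf₀0
  set f : 𝔇.O := ⟨a • f₀, haO⟩ with hf
  have hfne : (f : F) ≠ 0 := 𝔇.coe_ne_zero_of_res_ne_zero hres
  have hfE : (f : F) ∈ riemannRochSpace E := Submodule.smul_mem _ _ hf₀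
  set G := dv (K := L) (f : F) hfne with hGdef
  have hG : ∀ v, G v = v.ord (f : F) := fun v => dv_apply hfne v
  have hE' : 0 ≤ E + G := by
    rw [Finsupp.le_def]
    intro v
    rw [Finsupp.zero_apply, Finsupp.add_apply, hG v]
    have := (mem_rr_of_ne hfne).mp hfE v
    omega
  have hdegE' : Divisor.degree (E + G) = Divisor.degree E := by
    rw [map_add, hGdef, degree_dv, add_zero]
  obtain ⟨D, hD, hDdeg, hDeq⟩ := hc (E + G) hE' (by rw [hdegE']; exact h0)
  set G₁ := dv (K := k) (𝔇.res f) hres with hG₁def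
  have hG₁ : ∀ v, G₁ v = v.ord (𝔇.res f) := fun v => dv_apply hres v
  refine ⟨D - G₁, hD.smul hres hG₁ (𝔇.mem_red_mul hres hG), ?_, ?_⟩
  · rw [map_sub, hDdeg, hdegE', hG₁def, degree_dv, sub_zero]
  · ext x
    rw [𝔇.mem_red_mul hres hG]
    constructor
    · rintro ⟨y, hy, rfl⟩
      rw [hDeq] at hy
      rw [mul_mem_rr_iff hres hG₁, sub_add_cancel]
      exact hy
    · intro hx
      refine ⟨(𝔇.res f)⁻¹ * x, ?_, by field_simp⟩
      rw [hDeq, ← sub_add_cancel D G₁, ← mul_mem_rr_iff hres hG₁]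
      have : 𝔇.res f * ((𝔇.res f)⁻¹ * x) = x := by field_simp
      rw [this]
      exact hx

/-- **Deuring reduction theorem.** -/
theorem exists_reduction [IsAlgClosed L] :
    ∃ r : Place L F → Place k F₁,
      (∀ f : 𝔇.O, 𝔇.res f ≠ 0 → ∀ G : Divisor L F, (∀ P, G P = P.ord (f : F)) →
        ∀ Q, Finsupp.mapDomain r G Q = Q.ord (𝔇.res f)) ∧
      ∃ c : ℤ, ∀ E : Divisor L F, c ≤ Divisor.degree E →
        𝔇.red (riemannRochSpace E) = riemannRochSpace (Finsupp.mapDomain r E) := by
  classical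
  obtain ⟨c', hc'⟩ := 𝔇.exists_bar hRR hRR₁
  -- make the constant nonnegative
  obtain ⟨c, hc0, hcc'⟩ : ∃ c : ℤ, 0 ≤ c ∧ c' ≤ c := ⟨max c' 0, le_max_right _ _, le_max_left _ _⟩
  have hc : ∀ E : Divisor L F, ∃ D : Divisor k F₁, c ≤ Divisor.degree E →
      IsPoleDiv (𝔇.red (riemannRochSpace E)) D ∧ Divisor.degree D = Divisor.degree E ∧
        𝔇.red (riemannRochSpace E) = riemannRochSpace D := by
    intro E
    by_cases h : c ≤ Divisor.degree E
    · obtain ⟨D, hD⟩ := hc' E (hcc'.trans h)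
      exact ⟨D, fun _ => hD⟩
    · exact ⟨0, fun h' => absurd h' h⟩
  choose bar hbar using hc
  have hadd : ∀ E₁ E₂ : Divisor L F, c ≤ Divisor.degree E₁ → c ≤ Divisor.degree E₂ →
      bar (E₁ + E₂) = bar E₁ + bar E₂ := by
    intro E₁ E₂ h₁ h₂
    have h₃ : c ≤ Divisor.degree (E₁ + E₂) := by rw [map_add]; omega
    obtain ⟨p₁, d₁, e₁⟩ := hbar E₁ h₁
    obtain ⟨p₂, d₂, e₂⟩ := hbar E₂ h₂
    obtain ⟨p₃, d₃, e₃⟩ := hbar _ h₃
    symm
    apply eq_of_le_of_degree_le
    · refine p₁.add_le p₂ p₃ ?_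
      rintro _ ⟨f, hf, rfl⟩ _ ⟨h, hh, rfl⟩
      exact ⟨f * h, by push_cast; exact mul_mem_rr hf hh, map_mul _ _ _⟩
    · rw [d₃, map_add, map_add, d₁, d₂]
  have hdegP : ∀ (P : Place L F) (n : ℤ), Divisor.degree (Finsupp.single P n) = n := by
    intro P n
    rw [Divisor.degree_single, deg_eq_one P, Nat.cast_one, mul_one]
  obtain ⟨E₀, hE₀c⟩ : ∃ E₀ : Divisor L F, c ≤ Divisor.degree E₀ := by
    obtain ⟨P₀⟩ := exists_place (K := L) (F := F)
    exact ⟨Finsupp.single P₀ c, (hdegP P₀ c).ge⟩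
  have hdegadd : ∀ (E : Divisor L F) (P : Place L F), c ≤ Divisor.degree E →
      c ≤ Divisor.degree (E + Finsupp.single P 1) := by
    intro E P hE
    rw [map_add, hdegP]
    omega
  -- the local contribution of a place
  obtain ⟨φ, hφ⟩ : ∃ φ : Place L F → Divisor k F₁,
      ∀ P, φ P = bar (E₀ + Finsupp.single P 1) - bar E₀ := ⟨_, fun _ => rfl⟩
  have hstep : ∀ (E : Divisor L F) (P : Place L F), c ≤ Divisor.degree E →
      bar (E + Finsupp.single P 1) = bar E + φ P := by
    intro E P hE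
    have h1 := hadd (E + Finsupp.single P 1) E₀ (hdegadd E P hE) hE₀c
    have h2 := hadd E (E₀ + Finsupp.single P 1) hE (hdegadd E₀ P hE₀c)
    have h3 : E + Finsupp.single P 1 + E₀ = E + (E₀ + Finsupp.single P 1) := by abel
    rw [h3, h2] at h1
    rw [hφ P, eq_comm, ← add_sub_assoc, sub_eq_iff_eq_add]
    exact h1
  have hφ1 : ∀ P, ∃ Q, φ P = Finsupp.single Q 1 := by
    intro P
    obtain ⟨p₀, d₀, -⟩ := hbar E₀ hE₀c
    obtain ⟨p₁, d₁, -⟩ := hbar _ (hdegadd E₀ P hE₀c)
    apply eq_single_of_degree_eq_one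
    · rw [hφ P, sub_nonneg]
      refine p₀.mono p₁ (𝔇.red_mono (rr_mono ?_))
      exact le_add_of_nonneg_right (single_nonneg P zero_le_one)
    · rw [hφ P, map_sub, d₀, d₁, map_add, hdegP]
      ring
  choose r hr using hφ1
  -- adding multiples of a place
  have hnat : ∀ (n : ℕ) (E : Divisor L F) (P : Place L F), c ≤ Divisor.degree E →
      bar (E + Finsupp.single P (n : ℤ)) = bar E + Finsupp.single (r P) (n : ℤ) := by
    intro n
    induction n with
    | zero => intro E P hE; simp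
    | succ n ih =>
      intro E P hE
      have h1 : c ≤ Divisor.degree (E + Finsupp.single P (n : ℤ)) := by
        rw [map_add, hdegP]
        have := Int.natCast_nonneg n
        omega
      have h2 : E + Finsupp.single P ((n + 1 : ℕ) : ℤ)
          = E + Finsupp.single P (n : ℤ) + Finsupp.single P 1 := by
        rw [add_assoc, ← Finsupp.single_add]
        push_cast
        rfl
      rw [h2, hstep _ P h1, ih E P hE, hr P, add_assoc, ← Finsupp.single_add]
      push_cast
      rfl
  have hint : ∀ (n : ℤ) (E : Divisor L F) (P : Place L F), c ≤ Divisor.degree E →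
      c ≤ Divisor.degree (E + Finsupp.single P n) →
      bar (E + Finsupp.single P n) = bar E + Finsupp.single (r P) n := by
    intro n E P hE hE'
    rcases le_total 0 n with hn | hn
    · obtain ⟨m, rfl⟩ := Int.eq_ofNat_of_zero_le hn
      exact hnat m E P hE
    · obtain ⟨m, hm⟩ := Int.eq_ofNat_of_zero_le (neg_nonneg.mpr hn)
      have h1 := hnat m (E + Finsupp.single P n) P hE'
      have h2 : E + Finsupp.single P n + Finsupp.single P (m : ℤ) = E := by
        rw [add_assoc, ← Finsupp.single_add, ← hm, add_neg_cancel, Finsupp.single_zero, add_zero]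
      rw [h2, ← hm] at h1
      rw [h1, add_assoc, ← Finsupp.single_add, neg_add_cancel, Finsupp.single_zero, add_zero]
  -- adding an arbitrary divisor, large degree
  have hlarge : ∀ G : Divisor L F, ∃ d : ℤ, ∀ E : Divisor L F, d ≤ Divisor.degree E →
      bar (E + G) = bar E + Finsupp.mapDomain r G := by
    intro G
    induction G using Finsupp.induction with
    | zero => exact ⟨0, fun E _ => by simp⟩
    | single_add P n G _ _ ih =>
      obtain ⟨d, hd⟩ := ih
      refine ⟨max (d - n) (max c (c - n)), fun E hE => ?_⟩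
      have h1 : d - n ≤ Divisor.degree E := (le_max_left _ _).trans hE
      have h2 : c ≤ Divisor.degree E := ((le_max_left _ _).trans (le_max_right _ _)).trans hE
      have h3 : c - n ≤ Divisor.degree E := ((le_max_right _ _).trans (le_max_right _ _)).trans hE
      have h4 : d ≤ Divisor.degree (E + Finsupp.single P n) := by
        rw [map_add, hdegP]; omega
      have h5 : c ≤ Divisor.degree (E + Finsupp.single P n) := by
        rw [map_add, hdegP]; omega
      rw [← add_assoc, hd _ h4, hint n E P h2 h5, Finsupp.mapDomain_add,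
        Finsupp.mapDomain_single, add_assoc]
  have hgen : ∀ G E : Divisor L F, c ≤ Divisor.degree E → c ≤ Divisor.degree (E + G) →
      bar (E + G) = bar E + Finsupp.mapDomain r G := by
    intro G E hE hEG
    obtain ⟨d, hd⟩ := hlarge G
    obtain ⟨E'', hE''d, hE''c⟩ : ∃ E'' : Divisor L F, d ≤ Divisor.degree E'' ∧
        c ≤ Divisor.degree E'' := by
      obtain ⟨P₀⟩ := exists_place (K := L) (F := F)
      refine ⟨Finsupp.single P₀ (max d c), ?_, ?_⟩
      · rw [hdegP]; exact le_max_left _ _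
      · rw [hdegP]; exact le_max_right _ _
    have h1 := hadd (E + G) E'' hEG hE''c
    have h2 := hadd E E'' hE hE''c
    have h3 : E + G + E'' = (E + E'') + G := by abel
    have h4 : d ≤ Divisor.degree (E + E'') := by rw [map_add]; omega
    rw [h3, hd _ h4, h2] at h1
    have h5 : bar E + bar E'' + Finsupp.mapDomain r G
        = (bar E + Finsupp.mapDomain r G) + bar E'' := by abel
    rw [h5] at h1
    exact (add_right_cancel h1).symm
  refine ⟨r, ?_, c, ?_⟩
  · intro f hf G hG Q
    have hf0 := 𝔇.coe_ne_zero_of_res_ne_zero hf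
    have hGdv : G = dv (K := L) (f : F) hf0 := by
      ext v
      rw [hG, dv_apply]
    have hdegG : Divisor.degree G = 0 := by rw [hGdv, degree_dv]
    have hEG : c ≤ Divisor.degree (E₀ + G) := by rw [map_add, hdegG, add_zero]; exact hE₀c
    obtain ⟨p₀, -, -⟩ := hbar E₀ hE₀c
    obtain ⟨p₁, -, -⟩ := hbar _ hEG
    have hG₁ : ∀ v, dv (K := k) (𝔇.res f) hf v = v.ord (𝔇.res f) := fun v => dv_apply hf v
    have p₂ := p₁.smul hf hG₁ (𝔇.mem_red_mul hf hG)
    have h1 := p₀.unique p₂
    rw [hgen G E₀ hE₀c hEG] at h1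
    have h2 : Finsupp.mapDomain r G = dv (K := k) (𝔇.res f) hf := by
      have h3 : bar E₀ + (Finsupp.mapDomain r G - dv (K := k) (𝔇.res f) hf) = bar E₀ + 0 := by
        rw [add_zero, ← add_sub_assoc]
        exact h1.symm
      exact sub_eq_zero.mp (add_left_cancel h3)
    rw [h2, dv_apply]
  · intro E hE
    have hEE : c ≤ Divisor.degree (E + E) := by rw [map_add]; omega
    have h1 := hadd E E hE hE
    rw [hgen E E hE hEE] at h1
    rw [add_left_cancel h1]
    exact (hbar E hE).2.2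

end Data

end Fermat.Agent.Deuring
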