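import Fermat.Agent.Deuring.Descend
import Fermat.Agent.FunField.Local

/-!
# Genus descent

If `M/F` reduces to `M₁/F₁` (same degree) and the genus of `M` equals the genus of `M₁`, then the
genus of `F` equals the genus of `F₁`.
-/

set_option autoImplicit false

noncomputable section

open AlgebraicCurve Module

namespace Fermat.Agent.Deuring

open Fermat.Agent.FunField Fermat.Agent.FunField.PlaceLemmas

section Local

variable {K F : Type*} [Field K] [Field F] [Algebra K F]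

theorem mem_rr_iff_geSub {D : Divisor K F} {f : F} :
    f ∈ riemannRochSpace D ↔ ∀ v, f ∈ geSub v (-D v) := by
  rw [mem_riemannRochSpace_iff]
  exact forall_congr' fun v => mem_geSub.symm

theorem exists_const_sub [IsFF K F] [IsAlgClosed K] (v : Place K F) {f : F}
    (hf : f ∈ geSub v 0) : ∃ α : K, f - algebraMap K F α ∈ geSub v 1 := by
  have hfin := Fermat.Agent.Deuring.finite_residueField v
  have hsurj : Function.Surjective (algebraMap K v.ResidueField) :=
    IsAlgClosed.algebraMap_bijective_of_isIntegral.2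
  obtain ⟨α, hα⟩ := hsurj (residueLin v ⟨f, hf⟩)
  refine ⟨α, ?_⟩
  have h1 := (residueLin_eq_zero_iff v
    (⟨f, hf⟩ - ⟨algebraMap K F α, algebraMap_mem_geSub_zero v α⟩)).mp (by
      rw [map_sub, ← hα, sub_eq_zero]
      rfl)
  exact h1

/-- division by a function of known order. -/
theorem mem_geSub_mul_iff {v : Place K F} {u f : F} (hu : u ≠ 0) {m n : ℤ}
    (h : v.ord u = m) : u * f ∈ geSub v n ↔ f ∈ geSub v (n - m) := by
  have := mul_mem_geSub_iff (v := v) (n := n - m) (g := f) hu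
  rwa [h, add_sub_cancel] at this

theorem exists_const_sub_mul [IsFF K F] [IsAlgClosed K] (v : Place K F) {f u : F}
    (hu : u ≠ 0) (hf : f ∈ geSub v (v.ord u)) :
    ∃ α : K, f - algebraMap K F α * u ∈ geSub v (v.ord u + 1) := by
  have h1 : f = u * (u⁻¹ * f) := by field_simp
  rw [h1, mem_geSub_mul_iff hu rfl, sub_self] at hf
  obtain ⟨α, hα⟩ := exists_const_sub v hf
  refine ⟨α, ?_⟩
  have h2 : f - algebraMap K F α * u = u * (u⁻¹ * f - algebraMap K F α) := by
    field_simp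
  rw [h2, mem_geSub_mul_iff hu rfl]
  have h3 : v.ord u + 1 - v.ord u = 1 := by ring
  rw [h3]
  exact hα

/-- approximation by polynomials in a uniformizer. -/
theorem exists_poly_approx [IsFF K F] [IsAlgClosed K] (v : Place K F) {t u h : F}
    (ht0 : t ≠ 0) (ht : v.ord t = 1) (hu0 : u ≠ 0) (hu : v.ord u = 0) (hh : h ∈ geSub v 0)
    (N : ℕ) : ∃ p : Polynomial K, h - Polynomial.aeval t p * u ∈ geSub v N := by
  induction N with
  | zero => exact ⟨0, by simpa using hh⟩
  | succ N ih =>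
    obtain ⟨p, hp⟩ := ih
    have htu : t ^ N * u ≠ 0 := mul_ne_zero (pow_ne_zero _ ht0) hu0
    have hord : v.ord (t ^ N * u) = N := by
      rw [v.ord_mul (pow_ne_zero _ ht0) hu0, ord_pow, ht, hu]
      ring
    obtain ⟨α, hα⟩ := exists_const_sub_mul v htu (by rw [hord]; exact hp)
    rw [hord] at hα
    refine ⟨p + Polynomial.C α * Polynomial.X ^ N, ?_⟩
    rw [map_add, map_mul, Polynomial.aeval_C, map_pow, Polynomial.aeval_X, add_mul]
    have h1 : h - (Polynomial.aeval t p * u + algebraMap K F α * t ^ N * u)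
        = h - Polynomial.aeval t p * u - algebraMap K F α * (t ^ N * u) := by ring
    rw [h1]
    exact_mod_cast hα

theorem ord_prod {ι : Type*} (v : Place K F) (s : Finset ι) (f : ι → F)
    (hf : ∀ i ∈ s, f i ≠ 0) : v.ord (∏ i ∈ s, f i) = ∑ i ∈ s, v.ord (f i) := by
  classical
  induction s using Finset.induction_on with
  | empty => simp
  | insert a s ha ih =>
    rw [Finset.prod_insert ha, Finset.sum_insert ha,
      v.ord_mul (hf a (Finset.mem_insert_self _ _))
        (Finset.prod_ne_zero_iff.mpr fun i hi => hf i (Finset.mem_insert_of_mem hi)),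
      ih fun i hi => hf i (Finset.mem_insert_of_mem hi)]

end Local

section Ring

variable {k E : Type*} [Field k] [Field E] [Algebra k E] [IsFF k E] [IsAlgClosed k]
  [HasPrincipalDivisors k E]

/-- **Abstract form of the conductor argument.** Let `R` be a subring of the ring of functions
regular outside `P`, with the same pole orders in large degree (`hR`), finite codimension, and
separating points and tangents. Then `R` is everything. -/
theorem conductor_argument (P : Place k E) (Λ : ℕ → Submodule k E)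
    (hmono : Monotone Λ) (hle : ∀ n, Λ n ≤ riemannRochSpace (Finsupp.single P (n : ℤ)))
    (h1 : (1 : E) ∈ Λ 0)
    (hmul : ∀ m n, ∀ x ∈ Λ m, ∀ y ∈ Λ n, x * y ∈ Λ (m + n))
    {g g₁ : ℤ} {n₀ : ℕ}
    (hdim : ∀ n, n₀ ≤ n → (finrank k (Λ n) : ℤ) = n + 1 - g)
    (hdim₁ : ∀ n, n₀ ≤ n →
      (finrank k (riemannRochSpace (Finsupp.single P (n : ℤ))) : ℤ) = n + 1 - g₁)
    (hpole : ∀ n, n₀ ≤ n → ∃ w ∈ Λ n, w ≠ 0 ∧ P.ord w = -n)
    (hsep : ∀ S : Finset (Place k E), P ∉ S → ∀ Q ∈ S, ∃ n, ∃ t ∈ Λ n, t ≠ 0 ∧ Q.ord t = 1 ∧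
      ∀ Q' ∈ S, Q' ≠ Q → Q'.ord t = 0) : g = g₁ := by
  classical
  -- the algebra `R`
  let R : Subalgebra k E :=
    { carrier := {x | ∃ n, x ∈ Λ n}
      mul_mem' := by
        rintro x y ⟨m, hx⟩ ⟨n, hy⟩
        exact ⟨m + n, hmul m n x hx y hy⟩
      add_mem' := by
        rintro x y ⟨m, hx⟩ ⟨n, hy⟩
        exact ⟨max m n, Submodule.add_mem _ (hmono (le_max_left _ _) hx)
          (hmono (le_max_right _ _) hy)⟩
      algebraMap_mem' := by
        intro c
        refine ⟨0, ?_⟩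
        rw [Algebra.algebraMap_eq_smul_one]
        exact Submodule.smul_mem _ _ h1 }
  have hR : ∀ {x}, x ∈ R ↔ ∃ n, x ∈ Λ n := Iff.rfl
  -- characterization of `D`
  have hD : ∀ x : E, (∀ Q, Q ≠ P → x ∈ geSub Q 0) →
      ∃ n : ℕ, x ∈ riemannRochSpace (Finsupp.single P (n : ℤ)) := by
    intro x hx
    refine ⟨(-P.ord x).toNat, ?_⟩
    rw [mem_rr_iff_geSub]
    intro Q
    by_cases hQ : Q = P
    · subst hQ
      rw [Finsupp.single_eq_same, mem_geSub]
      right
      have := Int.self_le_toNat (-Q.ord x)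
      omega
    · rw [Finsupp.single_eq_of_ne hQ, neg_zero]
      exact hx Q hQ
  have hD' : ∀ (x : E) (n : ℕ), x ∈ riemannRochSpace (Finsupp.single P (n : ℤ)) →
      ∀ Q, Q ≠ P → x ∈ geSub Q 0 := by
    intro x n hx Q hQ
    have := mem_rr_iff_geSub.mp hx Q
    rwa [Finsupp.single_eq_of_ne hQ, neg_zero] at this
  have hfdR : ∀ n : ℕ, FiniteDimensional k (riemannRochSpace (Finsupp.single P (n : ℤ))) := by
    intro n
    exact Fermat.Agent.FunField.rr_finite _
  have hfdΛ : ∀ n : ℕ, FiniteDimensional k (Λ n) := fun n =>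
    Submodule.finiteDimensional_of_le (hle n)
  -- pole orders: `R ∩ L(nP) = Λ n`
  have hstep : ∀ n, n₀ ≤ n →
      Λ (n + 1) ⊓ riemannRochSpace (Finsupp.single P (n : ℤ)) ≤ Λ n := by
    intro n hn
    obtain ⟨w, hw, hw0, hord⟩ := hpole (n + 1) (by omega)
    have hlt : Λ (n + 1) ⊓ riemannRochSpace (Finsupp.single P (n : ℤ)) < Λ (n + 1) := by
      refine lt_of_le_of_ne inf_le_left fun heq => ?_
      rw [← heq] at hw
      have := (mem_rr_of_ne hw0).mp hw.2 P
      rw [hord, Finsupp.single_eq_same] at this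
      push_cast at this
      omega
    have h2 := Submodule.finrank_lt_finrank_of_lt hlt
    have h3 : Λ n ≤ Λ (n + 1) ⊓ riemannRochSpace (Finsupp.single P (n : ℤ)) :=
      le_inf (hmono (Nat.le_succ n)) (hle n)
    have h4 := hdim n hn
    have h5 := hdim (n + 1) (by omega)
    push_cast at h5
    refine le_of_eq (Submodule.eq_of_le_of_finrank_le h3 ?_).symm
    omega
  have hRn : ∀ n, n₀ ≤ n → ∀ x ∈ R, x ∈ riemannRochSpace (Finsupp.single P (n : ℤ)) →
      x ∈ Λ n := by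
    intro n hn x hx hxn
    obtain ⟨m, hm⟩ := hR.mp hx
    have key : ∀ j, x ∈ Λ (n + j) → x ∈ Λ n := by
      intro j
      induction j with
      | zero => exact id
      | succ j ih =>
        intro hj
        apply ih
        apply hstep (n + j) (by omega)
        refine ⟨hj, rr_mono ?_ hxn⟩
        exact Finsupp.single_le_single.mpr (by push_cast; omega)
    apply key m
    exact hmono (by omega) hm
  -- `D = R + L(n₀ P)`
  have hgen : ∀ j : ℕ, ∀ x ∈ riemannRochSpace (Finsupp.single P ((n₀ + j : ℕ) : ℤ)),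
      ∃ ρ ∈ R, x - ρ ∈ riemannRochSpace (Finsupp.single P (n₀ : ℤ)) := by
    intro j
    induction j with
    | zero => intro x hx; exact ⟨0, R.zero_mem, by simpa using hx⟩
    | succ j ih =>
      intro x hx
      obtain ⟨w, hw, hw0, hord⟩ := hpole (n₀ + j + 1) (by omega)
      have h2 : x ∈ geSub P (P.ord w) := by
        have := mem_rr_iff_geSub.mp hx P
        rw [Finsupp.single_eq_same] at this
        rw [hord]
        exact this
      obtain ⟨α, hα⟩ := exists_const_sub_mul P hw0 h2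
      have h3 : x - algebraMap k E α * w
          ∈ riemannRochSpace (Finsupp.single P ((n₀ + j : ℕ) : ℤ)) := by
        rw [mem_rr_iff_geSub]
        intro Q
        by_cases hQ : Q = P
        · subst hQ
          rw [Finsupp.single_eq_same]
          rw [hord] at hα
          have h4 : -((n₀ + j + 1 : ℕ) : ℤ) + 1 = -((n₀ + j : ℕ) : ℤ) := by push_cast; ring
          rw [h4] at hα
          exact hα
        · rw [Finsupp.single_eq_of_ne hQ, neg_zero]
          refine Submodule.sub_mem _ (hD' x _ hx Q hQ) ?_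
          rw [← Algebra.smul_def]
          exact Submodule.smul_mem _ _ (hD' w _ (hle _ hw) Q hQ)
      obtain ⟨ρ, hρ, hρ'⟩ := ih _ h3
      refine ⟨ρ + algebraMap k E α * w, ?_, ?_⟩
      · exact R.add_mem hρ (R.mul_mem (R.algebraMap_mem α) ⟨_, hw⟩)
      · have : x - (ρ + algebraMap k E α * w) = x - algebraMap k E α * w - ρ := by ring
        rw [this]
        exact hρ'
  -- denominators
  have hden1 : ∀ (n₁ : ℕ), ∀ w ∈ riemannRochSpace (Finsupp.single P (n₁ : ℤ)),
      ∃ a ∈ R, a ≠ 0 ∧ a * w ∈ R := by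
    intro n₁ w hw
    by_cases hw0 : w = 0
    · exact ⟨1, R.one_mem, one_ne_zero, by rw [hw0, mul_zero]; exact R.zero_mem⟩
    obtain ⟨n, hn, hn'⟩ : ∃ n : ℕ, n₀ ≤ n ∧ 2 * g - g₁ ≤ n := by
      refine ⟨max n₀ (2 * g - g₁).toNat, le_max_left _ _, ?_⟩
      have := Int.self_le_toNat (2 * g - g₁)
      push_cast
      exact this.trans (le_max_right _ _)
    let μ : E →ₗ[k] E := LinearMap.mulRight k w
    have hμ : Function.Injective μ := mul_left_injective₀ hw0
    have hB : (Λ n).map μ ≤ riemannRochSpace (Finsupp.single P ((n + n₁ : ℕ) : ℤ)) := by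
      rintro _ ⟨x, hx, rfl⟩
      have h2 := Fermat.Agent.Deuring.mul_mem_rr (hle n hx) hw
      rw [← Finsupp.single_add] at h2
      exact_mod_cast h2
    have hC := hle (n + n₁)
    have hBdim : finrank k ((Λ n).map μ) = finrank k (Λ n) :=
      (Submodule.equivMapOfInjective μ hμ (Λ n)).finrank_eq.symm
    have hne : (Λ n).map μ ⊓ Λ (n + n₁) ≠ ⊥ := by
      intro hbot
      have h2 := Submodule.finrank_sup_add_finrank_inf_eq ((Λ n).map μ) (Λ (n + n₁))
      rw [hbot, finrank_bot, hBdim] at h2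
      have h3 := Submodule.finrank_mono (sup_le hB hC)
      have h4 := hdim n hn
      have h5 := hdim (n + n₁) (by omega)
      have h6 := hdim₁ (n + n₁) (by omega)
      push_cast at h5 h6 h3
      push_cast at h2
      omega
    obtain ⟨y, hy, hy0⟩ := Submodule.exists_mem_ne_zero_of_ne_bot hne
    obtain ⟨⟨a, ha, hay⟩, hy2⟩ := hy
    refine ⟨a, ⟨n, ha⟩, ?_, ⟨n + n₁, ?_⟩⟩
    · rintro rfl
      exact hy0 (by rw [← hay]; exact map_zero μ)
    · have : a * w = y := hay
      rw [this]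
      exact hy2
  obtain ⟨a, haR, ha0, haW⟩ : ∃ a ∈ R, a ≠ 0 ∧
      ∀ w ∈ riemannRochSpace (Finsupp.single P (n₀ : ℤ)), a * w ∈ R := by
    have hfg : (riemannRochSpace (Finsupp.single P (n₀ : ℤ))).FG :=
      Module.Finite.iff_fg.mp (hfdR n₀)
    have key : ∀ N : Submodule k E, N.FG →
        (N ≤ riemannRochSpace (Finsupp.single P (n₀ : ℤ)) →
          ∃ a ∈ R, a ≠ 0 ∧ ∀ w ∈ N, a * w ∈ R) := by
      intro N hN
      refine Submodule.fg_induction (motive := fun N _ =>
        N ≤ riemannRochSpace (Finsupp.single P (n₀ : ℤ)) →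
          ∃ a ∈ R, a ≠ 0 ∧ ∀ w ∈ N, a * w ∈ R) ?_ ?_ N hN
      · intro x hx
        obtain ⟨a, haR, ha0, hax⟩ := hden1 n₀ x (hx (Submodule.mem_span_singleton_self x))
        refine ⟨a, haR, ha0, fun w hw => ?_⟩
        obtain ⟨c, rfl⟩ := Submodule.mem_span_singleton.mp hw
        rw [mul_smul_comm]
        exact R.smul_mem hax c
      · intro N₁ N₂ _ _ ih₁ ih₂ hN'
        obtain ⟨a, haR, ha0, ha⟩ := ih₁ (le_sup_left.trans hN')
        obtain ⟨b, hbR, hb0, hb⟩ := ih₂ (le_sup_right.trans hN')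
        refine ⟨a * b, R.mul_mem haR hbR, mul_ne_zero ha0 hb0, fun w hw => ?_⟩
        obtain ⟨w₁, hw₁, w₂, hw₂, rfl⟩ := Submodule.mem_sup.mp hw
        have : a * b * (w₁ + w₂) = b * (a * w₁) + a * (b * w₂) := by ring
        rw [this]
        exact R.add_mem (R.mul_mem hbR (ha _ hw₁)) (R.mul_mem haR (hb _ hw₂))
    exact key _ hfg le_rfl
  have haD : ∀ (n : ℕ), ∀ x ∈ riemannRochSpace (Finsupp.single P (n : ℤ)), a * x ∈ R := by
    intro n x hx
    have hx' : x ∈ riemannRochSpace (Finsupp.single P ((n₀ + n : ℕ) : ℤ)) :=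
      rr_mono (Finsupp.single_le_single.mpr (by push_cast; omega)) hx
    obtain ⟨ρ, hρ, hxρ⟩ := hgen n x hx'
    have : a * x = a * ρ + a * (x - ρ) := by ring
    rw [this]
    exact R.add_mem (R.mul_mem haR hρ) (haW _ hxρ)
  -- approximation
  have happrox : ∀ (S : Finset (Place k E)), P ∉ S → ∀ (N n : ℕ),
      ∀ h ∈ riemannRochSpace (Finsupp.single P (n : ℤ)),
      ∃ ρ ∈ R, ∀ Q ∈ S, h - ρ ∈ geSub Q N := by
    intro S hPS N n h hh
    choose! nt t htΛ ht0 ht1 ht' using hsep S hPS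
    have htR : ∀ Q ∈ S, t Q ∈ R := fun Q hQ => ⟨_, htΛ Q hQ⟩
    -- partition
    let e : Place k E → E := fun Q => ∏ Q' ∈ S.erase Q, t Q' ^ N
    have heR : ∀ Q, e Q ∈ R := fun Q =>
      R.prod_mem fun Q' hQ' => R.pow_mem (htR Q' (Finset.mem_of_mem_erase hQ')) N
    have he0 : ∀ Q, e Q ≠ 0 := fun Q =>
      Finset.prod_ne_zero_iff.mpr fun Q' hQ' =>
        pow_ne_zero _ (ht0 Q' (Finset.mem_of_mem_erase hQ'))
    have heQ : ∀ Q ∈ S, Q.ord (e Q) = 0 := by
      intro Q hQ
      rw [ord_prod Q _ _ fun Q' hQ' => pow_ne_zero _ (ht0 Q' (Finset.mem_of_mem_erase hQ'))]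
      refine Finset.sum_eq_zero fun Q' hQ' => ?_
      rw [ord_pow, ht' Q' (Finset.mem_of_mem_erase hQ') Q hQ (Finset.ne_of_mem_erase hQ').symm,
        mul_zero]
    have heQ' : ∀ Q ∈ S, ∀ Q' ∈ S, Q' ≠ Q → e Q' ∈ geSub Q N := by
      intro Q hQ Q' hQ' hne
      have hmem : Q ∈ S.erase Q' := Finset.mem_erase.mpr ⟨hne.symm, hQ⟩
      have : e Q' = t Q ^ N * ∏ Q'' ∈ (S.erase Q').erase Q, t Q'' ^ N :=
        (Finset.mul_prod_erase _ _ hmem).symm
      rw [this]
      have h2 : t Q ^ N ∈ geSub Q (N : ℤ) := by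
        rw [mem_geSub_of_ne (pow_ne_zero _ (ht0 Q hQ)), ord_pow, ht1 Q hQ, mul_one]
      have h3 : ∏ Q'' ∈ (S.erase Q').erase Q, t Q'' ^ N ∈ geSub Q 0 := by
        have hmemR : ∏ Q'' ∈ (S.erase Q').erase Q, t Q'' ^ N ∈ R :=
          R.prod_mem fun Q'' hQ'' =>
            R.pow_mem (htR Q'' (Finset.mem_of_mem_erase (Finset.mem_of_mem_erase hQ''))) N
        obtain ⟨m, hm⟩ := hR.mp hmemR
        exact hD' _ m (hle m hm) Q (fun h => hPS (h ▸ hQ))
      have := mul_mem_geSub h2 h3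
      rwa [add_zero] at this
    have hpoly : ∀ Q ∈ S, ∃ p : Polynomial k, h - Polynomial.aeval (t Q) p * e Q ∈ geSub Q N :=
      fun Q hQ => exists_poly_approx Q (ht0 Q hQ) (ht1 Q hQ) (he0 Q) (heQ Q hQ)
        (hD' h n hh Q (fun h => hPS (h ▸ hQ))) N
    choose! p hp using hpoly
    have haeval : ∀ Q ∈ S, Polynomial.aeval (t Q) (p Q) ∈ R := fun Q hQ => by
      have h2 := Polynomial.aeval_algHom_apply R.val ⟨t Q, htR Q hQ⟩ (p Q)
      have h3 : R.val ⟨t Q, htR Q hQ⟩ = t Q := rfl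
      rw [h3] at h2
      rw [h2]
      exact (Polynomial.aeval (⟨t Q, htR Q hQ⟩ : R) (p Q)).2
    refine ⟨∑ Q ∈ S, Polynomial.aeval (t Q) (p Q) * e Q,
      R.sum_mem fun Q hQ => R.mul_mem (haeval Q hQ) (heR Q), fun Q hQ => ?_⟩
    rw [← Finset.add_sum_erase _ _ hQ, ← sub_sub]
    refine Submodule.sub_mem _ (hp Q hQ) (Submodule.sum_mem _ fun Q' hQ' => ?_)
    obtain ⟨m, hm⟩ := hR.mp (haeval Q' (Finset.mem_of_mem_erase hQ'))
    have h2 := hD' _ m (hle m hm) Q (fun h => hPS (h ▸ hQ))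
    have h3 := mul_mem_geSub h2 (heQ' Q hQ Q' (Finset.mem_of_mem_erase hQ')
      (Finset.ne_of_mem_erase hQ'))
    rwa [zero_add] at h3
  -- conclusion: every element of `D` is in `R`
  have hDR : ∀ (n : ℕ), ∀ h ∈ riemannRochSpace (Finsupp.single P (n : ℤ)), h ∈ R := by
    intro n h hh
    let S : Finset (Place k E) := (dv (K := k) a ha0).support.erase P
    obtain ⟨N, hN⟩ : ∃ N : ℕ, ∀ Q ∈ S, Q.ord a ≤ N := by
      refine ⟨(∑ Q ∈ S, |Q.ord a|).toNat, fun Q hQ => ?_⟩
      have h2 : |Q.ord a| ≤ ∑ Q ∈ S, |Q.ord a| :=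
        Finset.single_le_sum (f := fun Q => |Q.ord a|) (fun Q _ => abs_nonneg _) hQ
      have h3 := Int.self_le_toNat (∑ Q ∈ S, |Q.ord a|)
      exact (le_abs_self _).trans (h2.trans h3)
    obtain ⟨ρ, hρ, hρ'⟩ := happrox S (Finset.notMem_erase _ _) N n h hh
    obtain ⟨m, hm⟩ := hR.mp hρ
    have hy : ∃ m : ℕ, a⁻¹ * (h - ρ) ∈ riemannRochSpace (Finsupp.single P (m : ℤ)) := by
      apply hD
      intro Q hQ
      rw [mem_geSub_mul_iff (inv_ne_zero ha0) rfl, Q.ord_inv, zero_sub, neg_neg]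
      by_cases hQS : Q ∈ S
      · exact geSub_anti Q (hN Q hQS) (hρ' Q hQS)
      · have h2 : Q.ord a = 0 := by
          by_contra hne
          apply hQS
          refine Finset.mem_erase.mpr ⟨hQ, ?_⟩
          rw [Finsupp.mem_support_iff, dv_apply]
          exact hne
        rw [h2]
        exact Submodule.sub_mem _ (hD' h n hh Q hQ) (hD' ρ m (hle m hm) Q hQ)
    obtain ⟨m', hm'⟩ := hy
    have h3 := haD m' _ hm'
    rw [← mul_assoc, mul_inv_cancel₀ ha0, one_mul] at h3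
    have : h = (h - ρ) + ρ := by ring
    rw [this]
    exact R.add_mem h3 hρ
  have heq : Λ n₀ = riemannRochSpace (Finsupp.single P (n₀ : ℤ)) :=
    le_antisymm (hle n₀) fun x hx => hRn n₀ le_rfl x (hDR n₀ x hx) hx
  have h4 := hdim n₀ le_rfl
  have h5 := hdim₁ n₀ le_rfl
  rw [heq] at h4
  omega

end Ring

variable {L k F F₁ M M₁ : Type*} [Field L] [Field k] [Field F] [Field F₁] [Field M] [Field M₁]
  [Algebra L F] [Algebra k F₁] [Algebra L M] [Algebra k M₁] [Algebra F M] [Algebra F₁ M₁]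

namespace Tower

variable {DF : Data L k F F₁} {DM : Data L k M M₁} (T : Tower DF DM)

variable [IsScalarTower L F M] [IsScalarTower k F₁ M₁]
  [FiniteDimensional F M] [FiniteDimensional F₁ M₁]
  [IsFF L F] [IsFF L M] [IsFF k F₁] [IsFF k M₁]
  [HasPrincipalDivisors L F] [HasPrincipalDivisors L M]
  [HasPrincipalDivisors k F₁] [HasPrincipalDivisors k M₁]
  [IsAlgClosed L] [IsAlgClosed k]
  [FundamentalIdentity L F M] [FundamentalIdentity k F₁ M₁]

include T

/-- **Genus descent.** -/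
theorem genus_eq (hNF : Divisor.PushforwardNormFormula L F M)
    (hNF₁ : Divisor.PushforwardNormFormula k F₁ M₁) (hd : finrank F M = finrank F₁ M₁)
    {gM g g₁ : ℤ} (hRRM : RRLarge L M gM) (hRRM₁ : RRLarge k M₁ gM)
    (hRRF : RRLarge L F g) (hRRF₁ : RRLarge k F₁ g₁) : g = g₁ := by
  classical
  obtain ⟨r, hr⟩ := DM.exists_isFullRed hRRM hRRM₁
  obtain ⟨r₀, hr₁, hr₂, hr₀⟩ := T.exists_descend hNF hNF₁ hd hRRM₁ hr
  obtain ⟨P⟩ := Fermat.Agent.Deuring.exists_place (K := L) (F := M)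
  obtain ⟨c₁, hc₁⟩ := hr.rr
  obtain ⟨c₂, hc₂⟩ := exists_norm_generic (F := F₁) hNF₁ hRRM₁
  obtain ⟨c₃, hc₃⟩ := hRRF
  obtain ⟨c₄, hc₄⟩ := hRRF₁
  obtain ⟨n₀, hn₀⟩ : ∃ n : ℕ, max (max c₁ c₂ + 1) (max c₃ c₄) ≤ n :=
    ⟨_, Int.self_le_toNat _⟩
  have hn₁ : c₁ ≤ n₀ := by
    have h1 : max c₁ c₂ + 1 ≤ n₀ := (le_max_left _ _).trans hn₀
    have h2 : c₁ ≤ max c₁ c₂ := le_max_left _ _
    omega
  have hn₂ : c₂ + 1 ≤ n₀ := by
    have h1 : max c₁ c₂ + 1 ≤ n₀ := (le_max_left _ _).trans hn₀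
    have h2 : c₂ ≤ max c₁ c₂ := le_max_right _ _
    omega
  have hn₃ : c₃ ≤ n₀ := ((le_max_left _ _).trans (le_max_right _ _)).trans hn₀
  have hn₄ : c₄ ≤ n₀ := ((le_max_right _ _).trans (le_max_right _ _)).trans hn₀
  have hdegF : ∀ n : ℕ, Divisor.degree (Finsupp.single (P.restrict F) (n : ℤ)) = n := by
    intro n
    rw [Divisor.degree_single, deg_eq_one, Nat.cast_one, mul_one]
  have hdegF₁ : ∀ n : ℕ, Divisor.degree (Finsupp.single ((r P).restrict F₁) (n : ℤ)) = n := by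
    intro n
    rw [Divisor.degree_single, deg_eq_one, Nat.cast_one, mul_one]
  have hdegM : ∀ n : ℕ, Divisor.degree (Finsupp.single P (n : ℤ)) = n := by
    intro n
    rw [Divisor.degree_single, deg_eq_one, Nat.cast_one, mul_one]
  -- norms of elements of `L(n (r P))` lie in `Λ n`
  have hnorm : ∀ n : ℕ, n₀ ≤ n → ∀ x ∈ riemannRochSpace (Finsupp.single (r P) (n : ℤ)),
      Algebra.norm F₁ x ∈ DF.red (riemannRochSpace (Finsupp.single (P.restrict F) (n : ℤ))) := by
    intro n hn x hx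
    have h1 : x ∈ DM.red (riemannRochSpace (Finsupp.single P (n : ℤ))) := by
      rw [hc₁ _ (by rw [hdegM]; have : (n₀ : ℤ) ≤ n := by exact_mod_cast hn
                    omega), Finsupp.mapDomain_single]
      exact hx
    have h2 := T.norm_mem_red hNF hd h1
    rwa [Divisor.pushforward_single, inertiaDeg_eq_one, Nat.cast_one, mul_one] at h2
  refine conductor_argument (k := k) (E := F₁) ((r P).restrict F₁)
    (fun n => DF.red (riemannRochSpace (Finsupp.single (P.restrict F) (n : ℤ))))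
    ?_ ?_ ?_ ?_ (n₀ := n₀) (g := g) (g₁ := g₁) ?_ ?_ ?_ ?_
  · intro m n hmn
    exact DF.red_mono (rr_mono (Finsupp.single_le_single.mpr (by exact_mod_cast hmn)))
  · intro n
    have h1 := hr₀.red_le (Finsupp.single (P.restrict F) (n : ℤ))
    rwa [Finsupp.mapDomain_single, hr₁] at h1
  · refine ⟨1, ?_, map_one _⟩
    exact one_mem_rr (single_nonneg _ (by simp))
  · rintro m n _ ⟨x, hx, rfl⟩ _ ⟨y, hy, rfl⟩
    refine ⟨x * y, ?_, map_mul _ _ _⟩
    have h1 := Fermat.Agent.Deuring.mul_mem_rr hx hy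
    rw [← Finsupp.single_add] at h1
    exact_mod_cast h1
  · intro n hn
    have hn' : (n₀ : ℤ) ≤ n := by exact_mod_cast hn
    obtain ⟨hfd, hrk⟩ := hc₃ (Finsupp.single (P.restrict F) (n : ℤ)) (by rw [hdegF]; omega)
    rw [DF.finrank_red, hrk, hdegF]
  · intro n hn
    have hn' : (n₀ : ℤ) ≤ n := by exact_mod_cast hn
    obtain ⟨hfd, hrk⟩ := hc₄ (Finsupp.single ((r P).restrict F₁) (n : ℤ))
      (by rw [hdegF₁]; omega)
    rw [hrk, hdegF₁]
  · intro n hn
    have hn' : (n₀ : ℤ) ≤ n := by exact_mod_cast hn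
    obtain ⟨f, hf, hf0, hfS⟩ := hc₂ (Finsupp.single (r P) (n : ℤ))
      (by rw [Divisor.degree_single, deg_eq_one, Nat.cast_one, mul_one]; omega)
      {(r P).restrict F₁} (Finset.singleton_nonempty _)
    refine ⟨Algebra.norm F₁ f, hnorm n hn f hf, Algebra.norm_ne_zero_iff.mpr hf0, ?_⟩
    rw [hfS _ (Finset.mem_singleton_self _), Divisor.pushforward_single, inertiaDeg_eq_one,
      Finsupp.single_eq_same, Nat.cast_one, mul_one]
  · intro S hPS Q hQ
    obtain ⟨y, hy⟩ := restrict_surjective (K := k) (F := F₁) (F' := M₁) Q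
    simp only at hy
    obtain ⟨f, hf, hf0, hfS⟩ := hc₂ (Finsupp.single (r P) (n₀ : ℤ) - Finsupp.single y 1)
      (by rw [map_sub, Divisor.degree_single, Divisor.degree_single, deg_eq_one, deg_eq_one,
            Nat.cast_one, mul_one]; omega) S ⟨Q, hQ⟩
    have hf' : f ∈ riemannRochSpace (Finsupp.single (r P) (n₀ : ℤ)) := by
      refine rr_mono ?_ hf
      rw [sub_le_self_iff]
      exact single_nonneg y zero_le_one
    have hord : ∀ Q' ∈ S, Q'.ord (Algebra.norm F₁ f) = Finsupp.single Q (1 : ℤ) Q' := by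
      intro Q' hQ'
      have hne : Q' ≠ (r P).restrict F₁ := fun h => hPS (h ▸ hQ')
      rw [hfS Q' hQ', map_sub, Divisor.pushforward_single, Divisor.pushforward_single,
        inertiaDeg_eq_one, inertiaDeg_eq_one, hy, Nat.cast_one, mul_one, mul_one,
        Finsupp.sub_apply, Finsupp.single_eq_of_ne hne]
      ring
    refine ⟨n₀, Algebra.norm F₁ f, hnorm n₀ le_rfl f hf', Algebra.norm_ne_zero_iff.mpr hf0,
      ?_, ?_⟩
    · rw [hord Q hQ, Finsupp.single_eq_same]
    · intro Q' hQ' hne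
      rw [hord Q' hQ', Finsupp.single_eq_of_ne hne]

/-- Functoriality of given reduction maps in a tower. -/
theorem restrict_red (hNF : Divisor.PushforwardNormFormula L F M)
    (hNF₁ : Divisor.PushforwardNormFormula k F₁ M₁) (hd : finrank F M = finrank F₁ M₁)
    {gM g : ℤ} (hRRM₁ : RRLarge k M₁ gM) (hRRF : RRLarge L F g)
    {r : Place L M → Place k M₁} (hr : DM.IsFullRed r)
    {rF : Place L F → Place k F₁} (hrF : DF.IsRed rF) :
    (∀ P : Place L M, rF (P.restrict F) = (r P).restrict F₁) ∧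
    (∀ E : Divisor L F, Finsupp.mapDomain r (Divisor.pullback M E)
        = Divisor.pullback M₁ (Finsupp.mapDomain rF E)) ∧
    (∀ D : Divisor L M, Finsupp.mapDomain rF (Divisor.pushforward F D)
        = Divisor.pushforward F₁ (Finsupp.mapDomain r D)) := by
  obtain ⟨r₀, hr₁, hr₂, hr₀⟩ := T.exists_descend hNF hNF₁ hd hRRM₁ hr
  obtain rfl := hrF.eq hRRF hr₀
  refine ⟨hr₁, hr₂, fun D => ?_⟩
  rw [pushforward_eq_mapDomain, pushforward_eq_mapDomain, ← Finsupp.mapDomain_comp,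
    ← Finsupp.mapDomain_comp]
  congr 1
  funext P
  exact hr₁ P

end Tower

end Fermat.Agent.Deuring
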