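import Fermat.Agent.Deuring.Unique
import Fermat.Prelude.Def_AlgebraicCurve_DivisorPushPull
import Mathlib.RingTheory.Norm.Basic

/-!
# Reduction in towers: norms, descent of the reduction map, compatibility with pullback
-/

set_option autoImplicit false

noncomputable section

open AlgebraicCurve Module

namespace Fermat.Agent.Deuring

open Fermat.Agent.FunField Fermat.Agent.FunField.PlaceLemmas

section General

theorem exists_scale' {E : Type*} [Field E] (V : ValuationSubring E) {ι : Type*} [Finite ι]
    (c : ι → E) (hc : c ≠ 0) : ∃ j, c j ≠ 0 ∧ ∀ i, c i / c j ∈ V := by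
  classical
  obtain ⟨i₀, hi₀⟩ : ∃ i, c i ≠ 0 := by
    by_contra h
    push Not at h
    exact hc (funext h)
  have := Fintype.ofFinite ι
  obtain ⟨j, -, hj⟩ := Finset.exists_max_image Finset.univ (fun i => V.valuation (c i))
    ⟨i₀, Finset.mem_univ _⟩
  have hj0 : c j ≠ 0 := by
    intro h0
    have h1 := hj i₀ (Finset.mem_univ _)
    rw [h0, map_zero, le_zero_iff, map_eq_zero] at h1
    exact hi₀ h1
  refine ⟨j, hj0, fun i => ?_⟩
  rw [← V.valuation_le_one_iff, map_div₀]
  exact div_le_one_of_le₀ (hj i (Finset.mem_univ _)) zero_le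

variable {K F F' : Type*} [Field K] [Field F] [Field F'] [Algebra K F] [Algebra K F']
  [Algebra F F'] [IsScalarTower K F F'] [Algebra.IsIntegral F F']

theorem inertiaDeg_eq_one [IsFF K F'] [IsFF K F] [IsAlgClosed K] (w : Place K F') :
    w.inertiaDeg F = 1 := by
  have h := w.deg_restrict_mul_inertiaDeg (F := F)
  rwa [deg_eq_one, deg_eq_one, one_mul] at h

theorem pushforward_eq_mapDomain [IsFF K F'] [IsFF K F] [IsAlgClosed K] (D : Divisor K F') :
    Divisor.pushforward F D = Finsupp.mapDomain (fun w => w.restrict F) D := by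
  induction D using Finsupp.induction with
  | zero => simp
  | single_add w n D _ _ ih =>
    rw [map_add, ih, Finsupp.mapDomain_add, Finsupp.mapDomain_single,
      Divisor.pushforward_single, inertiaDeg_eq_one, Nat.cast_one, mul_one]

theorem restrict_surjective [IsFF K F] [HasPrincipalDivisors K F'] [FundamentalIdentity K F F']
    [FiniteDimensional F F'] : Function.Surjective (fun w : Place K F' => w.restrict F) := by
  intro v
  by_contra hcon
  push Not at hcon
  have h1 := FundamentalIdentity.sum_ramificationIndex_mul_deg (K := K) (F := F) (F' := F') v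
  have h2 : v.fiber F' = ∅ := by
    rw [Finset.eq_empty_iff_forall_notMem]
    intro w hw
    exact hcon w (Place.mem_fiber.mp hw)
  rw [h2, Finset.sum_empty] at h1
  have h3 : (0 : ℤ) < finrank F F' := by exact_mod_cast Module.finrank_pos
  have h4 : (0 : ℤ) < v.deg := by exact_mod_cast deg_pos v
  have := mul_pos h3 h4
  omega

theorem pullback_mono [HasPrincipalDivisors K F'] {D E : Divisor K F} (h : D ≤ E) :
    Divisor.pullback F' D ≤ Divisor.pullback F' E := by
  rw [Finsupp.le_def]
  intro w
  rw [Divisor.pullback_apply, Divisor.pullback_apply]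
  exact mul_le_mul_of_nonneg_left (Finsupp.le_def.mp h _) (Int.natCast_nonneg _)

theorem pullback_dv [HasPrincipalDivisors K F'] [HasPrincipalDivisors K F] {f : F} (hf : f ≠ 0)
    (hf' : algebraMap F F' f ≠ 0) :
    Divisor.pullback F' (dv (K := K) f hf) = dv (K := K) (algebraMap F F' f) hf' := by
  ext w
  rw [Divisor.pullback_apply_eq_ord (fun v => dv_apply hf v), dv_apply]

theorem pullback_injective [IsFF K F] [HasPrincipalDivisors K F'] [FundamentalIdentity K F F']
    [FiniteDimensional F F'] : Function.Injective (Divisor.pullback F' : Divisor K F →+ _) := by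
  intro D E h
  ext v
  obtain ⟨w, hw⟩ := restrict_surjective (K := K) (F := F) (F' := F') v
  have h1 := DFunLike.congr_fun h w
  rw [Divisor.pullback_apply, Divisor.pullback_apply] at h1
  have h2 : (w.ramificationIndex F : ℤ) ≠ 0 := by
    have := w.ramificationIndex_pos (F := F)
    omega
  have h3 := mul_left_cancel₀ h2 h1
  simp only at hw
  rwa [hw] at h3

theorem degree_mapDomain {k F₁ : Type*} [Field k] [Field F₁] [Algebra k F₁] [IsFF k F₁]
    [IsAlgClosed k] [IsFF K F] [IsAlgClosed K] (r : Place K F → Place k F₁) (D : Divisor K F) :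
    Divisor.degree (Finsupp.mapDomain r D) = Divisor.degree D := by
  induction D using Finsupp.induction with
  | zero => simp
  | single_add w n D _ _ ih =>
    rw [Finsupp.mapDomain_add, Finsupp.mapDomain_single, map_add, map_add, ih,
      Divisor.degree_single, Divisor.degree_single, deg_eq_one, deg_eq_one]

/-- `D` is the pole divisor of `L(D)` in large degree. -/
theorem exists_isPoleDiv_rr [IsFF K F] [IsAlgClosed K] {g : ℤ} (hRR : RRLarge K F g) :
    ∃ c : ℤ, ∀ D : Divisor K F, c ≤ Divisor.degree D → IsPoleDiv (riemannRochSpace D) D := by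
  classical
  obtain ⟨c, hc⟩ := hRR
  refine ⟨c + 1, fun D hD => ⟨le_rfl, fun v => ?_⟩⟩
  have hdeg : Divisor.degree (D - Finsupp.single v 1) = Divisor.degree D - 1 := by
    rw [map_sub, Divisor.degree_single, deg_eq_one v, Nat.cast_one, mul_one]
  obtain ⟨hfd, hrk⟩ := hc D (by omega)
  obtain ⟨hfd', hrk'⟩ := hc (D - Finsupp.single v 1) (by omega)
  have hlt : ¬ riemannRochSpace D ≤ riemannRochSpace (D - Finsupp.single v 1) := by
    intro hle
    have := Submodule.finrank_mono hle
    omega
  obtain ⟨f, hf, hf'⟩ := SetLike.not_le_iff_exists.mp hlt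
  have hf0 : f ≠ 0 := by
    rintro rfl
    exact hf' (Submodule.zero_mem _)
  refine ⟨f, hf, hf0, ?_⟩
  have h1 := (mem_rr_of_ne hf0).mp hf
  rw [mem_rr_of_ne hf0] at hf'
  push Not at hf'
  obtain ⟨w, hw⟩ := hf'
  rw [Finsupp.sub_apply] at hw
  have h3 := h1 w
  by_cases hwv : w = v
  · subst hwv
    rw [Finsupp.single_eq_same] at hw
    omega
  · rw [Finsupp.single_eq_of_ne hwv] at hw
    omega

/-- Functions whose norms have prescribed order at finitely many places. -/
theorem exists_norm_generic [IsFF K F] [IsFF K F'] [IsAlgClosed K] [HasPrincipalDivisors K F]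
    [HasPrincipalDivisors K F'] [FiniteDimensional F F'] [FundamentalIdentity K F F']
    (hNF : Divisor.PushforwardNormFormula K F F') {g : ℤ} (hRR : RRLarge K F' g) :
    ∃ c : ℤ, ∀ E : Divisor K F', c ≤ Divisor.degree E → ∀ S : Finset (Place K F), S.Nonempty →
      ∃ f ∈ riemannRochSpace E, f ≠ 0 ∧
        ∀ v ∈ S, v.ord (Algebra.norm F f) = -(Divisor.pushforward F E) v := by
  classical
  obtain ⟨c, hc⟩ := exists_isPoleDiv_rr hRR
  refine ⟨c, fun E hE S hS => ?_⟩
  have hinf : Infinite K := IsAlgClosed.instInfinite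
  obtain ⟨v₀, hv₀⟩ := hS
  obtain ⟨w₀, hw₀⟩ := restrict_surjective (K := K) (F := F) (F' := F') v₀
  obtain ⟨f, hf, hf0, hfS⟩ := (hc E hE).exists_generic (S.biUnion fun v => v.fiber F')
    ⟨w₀, Finset.mem_biUnion.mpr ⟨v₀, hv₀, Place.mem_fiber.mpr hw₀⟩⟩
  refine ⟨f, hf, hf0, fun v hv => ?_⟩
  rw [← hNF f hf0 (dv f hf0) (fun w => dv_apply hf0 w) v]
  have h1 : Divisor.pushforward F (dv (K := K) f hf0 + E) v = 0 := by
    rw [Divisor.pushforward_apply]
    refine Finset.sum_eq_zero fun w hw => ?_
    split_ifs with hwv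
    · exfalso
      rw [Finsupp.mem_support_iff, Finsupp.add_apply, dv_apply] at hw
      apply hw
      rw [hfS w (Finset.mem_biUnion.mpr ⟨v, hv, Place.mem_fiber.mpr hwv⟩)]
      ring
    · rfl
  rw [map_add, Finsupp.add_apply] at h1
  omega

end General

variable {L k F F₁ M M₁ : Type*} [Field L] [Field k] [Field F] [Field F₁] [Field M] [Field M₁]
  [Algebra L F] [Algebra k F₁] [Algebra L M] [Algebra k M₁] [Algebra F M] [Algebra F₁ M₁]

/-- Compatible reduction data in a tower. -/
structure Tower (DF : Data L k F F₁) (DM : Data L k M M₁) : Prop where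
  mem : ∀ f : F, algebraMap F M f ∈ DM.O ↔ f ∈ DF.O
  res : ∀ f : DF.O, DM.res ⟨algebraMap F M (f : F), (mem _).mpr f.2⟩
    = algebraMap F₁ M₁ (DF.res f)

namespace Tower

variable {DF : Data L k F F₁} {DM : Data L k M M₁} (T : Tower DF DM)
include T

/-- the inclusion of valuation rings. -/
def lift (f : DF.O) : DM.O := ⟨algebraMap F M (f : F), (T.mem _).mpr f.2⟩

@[simp] theorem coe_lift (f : DF.O) : ((T.lift f : DM.O) : M) = algebraMap F M (f : F) := rfl

@[simp] theorem res_lift (f : DF.O) : DM.res (T.lift f) = algebraMap F₁ M₁ (DF.res f) := T.res f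

theorem coord_mem {ι : Type*} [Fintype ι] (b : ι → DM.O)
    (hb : LinearIndependent F₁ (fun i => DM.res (b i))) (c : ι → F)
    (h : ∑ i, c i • ((b i : DM.O) : M) ∈ DM.O) : ∀ i, c i ∈ DF.O := by
  classical
  by_contra hcon
  push Not at hcon
  obtain ⟨i₀, hi₀⟩ := hcon
  have hc : c ≠ 0 := by
    rintro rfl
    exact hi₀ (zero_mem _)
  obtain ⟨j, hj0, hj⟩ := exists_scale' DF.O c hc
  have hjA : c j ∉ DF.O := by
    intro hmem
    apply hi₀
    have : c i₀ = c i₀ / c j * c j := by field_simp
    rw [this]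
    exact mul_mem (hj i₀) hmem
  have hinv : (c j)⁻¹ ∈ DF.O := (DF.O.mem_or_inv_mem (c j)).resolve_left hjA
  let d : ι → DF.O := fun i => ⟨c i / c j, hj i⟩
  let e : DF.O := ⟨(c j)⁻¹, hinv⟩
  have hrel : ∑ i, T.lift (d i) * b i = T.lift e * ⟨_, h⟩ := by
    apply Subtype.ext
    push_cast
    rw [coe_lift, Finset.mul_sum]
    refine Finset.sum_congr rfl fun i _ => ?_
    rw [coe_lift, Algebra.smul_def]
    show algebraMap F M (c i / c j) * _ = algebraMap F M (c j)⁻¹ * (algebraMap F M (c i) * _)
    rw [← mul_assoc, ← map_mul]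
    congr 2
    field_simp
  have he : DF.res e = 0 := by
    rw [DF.res_ker]
    intro hu
    apply hjA
    obtain ⟨b', hb'⟩ := hu.exists_right_inv
    have h1 : (c j)⁻¹ * (b' : F) = 1 := congrArg Subtype.val hb'
    have h2 : c j = b' := by
      field_simp at h1
      exact h1.symm
    rw [h2]
    exact b'.2
  have hres := congrArg DM.res hrel
  rw [map_sum, map_mul, res_lift, he, map_zero, zero_mul] at hres
  have hres' : ∑ i, DF.res (d i) • DM.res (b i) = 0 := by
    rw [← hres]
    refine Finset.sum_congr rfl fun i _ => ?_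
    rw [map_mul, res_lift, Algebra.smul_def]
  have := Fintype.linearIndependent_iff.mp hb _ hres' j
  have h1 : d j = 1 := Subtype.ext (div_self hj0)
  rw [h1, map_one] at this
  exact one_ne_zero this

theorem linearIndependent_of_res {ι : Type*} [Fintype ι] (b : ι → DM.O)
    (hb : LinearIndependent F₁ (fun i => DM.res (b i))) :
    LinearIndependent F (fun i => ((b i : DM.O) : M)) := by
  classical
  rw [Fintype.linearIndependent_iff]
  intro c hc0
  by_contra hne
  push Not at hne
  obtain ⟨i₀, hi₀⟩ := hne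
  have hc : c ≠ 0 := fun h => hi₀ (congrFun h i₀)
  obtain ⟨j, hj0, hj⟩ := exists_scale' DF.O c hc
  let d : ι → DF.O := fun i => ⟨c i / c j, hj i⟩
  have hrel : ∑ i : ι, T.lift (d i) * b i = 0 := by
    apply Subtype.ext
    push_cast
    have : ∑ i : ι, algebraMap F M (c i / c j) * ((b i : DM.O) : M)
        = (algebraMap F M (c j))⁻¹ * ∑ i : ι, c i • ((b i : DM.O) : M) := by
      rw [Finset.mul_sum]
      refine Finset.sum_congr rfl fun i _ => ?_
      rw [Algebra.smul_def, map_div₀]
      ring
    refine Eq.trans ?_ (this.trans ?_)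
    · rfl
    · rw [hc0, mul_zero]
  have hres := congrArg DM.res hrel
  rw [map_sum, map_zero] at hres
  have hres' : ∑ i : ι, DF.res (d i) • DM.res (b i) = 0 := by
    rw [← hres]
    refine Finset.sum_congr rfl fun i _ => ?_
    rw [map_mul, res_lift, Algebra.smul_def]
  have := Fintype.linearIndependent_iff.mp hb _ hres' j
  have h1 : d j = 1 := Subtype.ext (div_self hj0)
  rw [h1, map_one] at this
  exact one_ne_zero this

/-- **Norms reduce to norms.** -/
theorem norm_res [FiniteDimensional F M] [FiniteDimensional F₁ M₁]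
    (hd : finrank F M = finrank F₁ M₁) (c : DM.O) :
    ∃ h : Algebra.norm F (c : M) ∈ DF.O,
      DF.res ⟨Algebra.norm F (c : M), h⟩ = Algebra.norm F₁ (DM.res c) := by
  classical
  let b₁ := Module.finBasis F₁ M₁
  choose e he using fun i => DM.res_surj (b₁ i)
  have hli₁ : LinearIndependent F₁ (fun i => DM.res (e i)) := by
    have : (fun i => DM.res (e i)) = b₁ := funext he
    rw [this]
    exact b₁.linearIndependent
  have hli := T.linearIndependent_of_res e hli₁
  have : Nonempty (Fin (finrank F₁ M₁)) := ⟨⟨0, Module.finrank_pos⟩⟩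
  let b : Basis (Fin (finrank F₁ M₁)) F M :=
    basisOfLinearIndependentOfCardEqFinrank hli (by rw [Fintype.card_fin, hd])
  have hb : ∀ i, b i = ((e i : DM.O) : M) := fun i => by
    simp [b, coe_basisOfLinearIndependentOfCardEqFinrank]
  -- coordinates
  have hcoord : ∀ x : DM.O, ∀ i, b.repr (x : M) i ∈ DF.O := by
    intro x
    apply T.coord_mem e hli₁
    have : ∑ i, b.repr (x : M) i • ((e i : DM.O) : M) = x := by
      conv_rhs => rw [← b.sum_repr (x : M)]
      exact Finset.sum_congr rfl fun i _ => by rw [hb]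
    rw [this]
    exact x.2
  have hrescoord : ∀ (x : DM.O) (i), DF.res ⟨b.repr (x : M) i, hcoord x i⟩
      = b₁.repr (DM.res x) i := by
    intro x
    have h1 : x = ∑ i, T.lift ⟨b.repr (x : M) i, hcoord x i⟩ * e i := by
      apply Subtype.ext
      push_cast
      conv_lhs => rw [← b.sum_repr (x : M)]
      exact Finset.sum_congr rfl fun i _ => by rw [hb, Algebra.smul_def]; rfl
    have h2 : DM.res x = ∑ i, DF.res ⟨b.repr (x : M) i, hcoord x i⟩ • b₁ i := by
      conv_lhs => rw [h1]
      rw [map_sum]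
      refine Finset.sum_congr rfl fun i _ => ?_
      rw [map_mul, res_lift, he, Algebra.smul_def]
    intro i
    rw [h2, b₁.repr_sum_self]
  let A : Matrix (Fin (finrank F₁ M₁)) (Fin (finrank F₁ M₁)) DF.O := fun i j =>
    ⟨b.repr (((c * e j : DM.O)) : M) i, hcoord (c * e j) i⟩
  have hA : A.map (DF.O.subtype) = Algebra.leftMulMatrix b (c : M) := by
    ext i j
    rw [Matrix.map_apply, Algebra.leftMulMatrix_eq_repr_mul, hb]
    rfl
  have hA₁ : A.map DF.res = Algebra.leftMulMatrix b₁ (DM.res c) := by
    ext i j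
    rw [Matrix.map_apply, Algebra.leftMulMatrix_eq_repr_mul]
    show DF.res ⟨b.repr (((c * e j : DM.O)) : M) i, hcoord (c * e j) i⟩ = _
    rw [hrescoord, map_mul, he]
  have hn : Algebra.norm F (c : M) = ((A.det : DF.O) : F) := by
    rw [Algebra.norm_eq_matrix_det b, ← hA]
    exact (RingHom.map_det DF.O.subtype A).symm
  have hn₁ : Algebra.norm F₁ (DM.res c) = DF.res A.det := by
    rw [Algebra.norm_eq_matrix_det b₁, ← hA₁]
    exact (RingHom.map_det DF.res A).symm
  refine ⟨by rw [hn]; exact (A.det).2, ?_⟩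
  rw [hn₁]
  exact congrArg DF.res (Subtype.ext hn)

end Tower

end Fermat.Agent.Deuring
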