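import Fermat.Agent.Deuring.PoleDiv

/-!
# The key degree inequality: `deg (poleDiv (red L(E))) ≤ deg E` for effective `E`.
-/

set_option autoImplicit false

noncomputable section

open AlgebraicCurve Module IntermediateField

namespace Fermat.Agent.Deuring

open Fermat.Agent.FunField Fermat.Agent.FunField.PlaceLemmas

section Tower

variable {K F : Type*} [Field K] [Field F] [Algebra K F]

theorem linearIndependent_pow_of_transcendental {E : Type*} [Field E] [Algebra K E] {y : E}
    (hy : Transcendental K y) : LinearIndependent K (fun n : ℕ => y ^ n) := by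
  have h1 := (Polynomial.basisMonomials K).linearIndependent
  have h2 := h1.map' (Polynomial.aeval y).toLinearMap
    (LinearMap.ker_eq_bot.mpr (transcendental_iff_injective.mp hy))
  have h3 : ((Polynomial.aeval y).toLinearMap ∘ (Polynomial.basisMonomials K) : ℕ → E)
      = fun n => y ^ n := by
    funext n
    simp [Polynomial.coe_basisMonomials, Polynomial.aeval_monomial]
  rwa [h3] at h2

/-- degree of effective divisors is nonnegative. -/
theorem degree_nonneg {D : Divisor K F} (hD : 0 ≤ D) : 0 ≤ Divisor.degree D := by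
  rw [Divisor.degree, Finsupp.liftAddHom_apply, Finsupp.sum]
  refine Finset.sum_nonneg fun v _ => ?_
  have := Finsupp.le_def.mp hD v
  rw [Finsupp.zero_apply] at this
  exact mul_nonneg this (Int.natCast_nonneg _)

theorem degree_mono {D D' : Divisor K F} (h : D ≤ D') : Divisor.degree D ≤ Divisor.degree D' := by
  have h1 := degree_nonneg (sub_nonneg.mpr h)
  rw [map_sub] at h1
  linarith

theorem degree_eq_sum (D : Divisor K F) :
    Divisor.degree D = ∑ v ∈ D.support, D v * (v.deg : ℤ) := by
  rw [Divisor.degree, Finsupp.liftAddHom_apply, Finsupp.sum]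
  rfl

theorem exists_transcendental_ord_pos [IsFF K F] (v : Place K F) :
    ∃ t : F, Transcendental K t ∧ 0 < v.ord t := by
  obtain ⟨t, -, h1⟩ := exists_ord_eq_one v
  exact ⟨t, transcendental_of_ord_ne_zero v (by omega), by omega⟩

theorem exists_place [h : IsFF K F] : Nonempty (Place K F) := by
  obtain ⟨x, hx, -⟩ := h.exists_transcendental
  obtain ⟨v, -⟩ := exists_place_ord_pos hx
  exact ⟨v⟩

theorem finite_residueField [IsFF K F] (v : Place K F) : Module.Finite K v.ResidueField := by
  obtain ⟨t, ht, h1⟩ := exists_transcendental_ord_pos v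
  have := finiteDimensional_adjoin_of_isFF ht
  exact finite_residueField_of_pos t ht v h1

theorem deg_pos [IsFF K F] (v : Place K F) : 0 < v.deg := by
  have := finite_residueField v
  exact Module.finrank_pos

/-- finitely many nonzero functions have poles bounded by an effective divisor of large degree. -/
theorem exists_bound [IsFF K F] [HasPrincipalDivisors K F] {ι : Type*} [Finite ι] (f : ι → F)
    (c : ℤ) : ∃ E : Divisor K F, 0 ≤ E ∧ c ≤ Divisor.degree E ∧ ∀ i, f i ∈ riemannRochSpace E := by
  classical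
  have := Fintype.ofFinite ι
  obtain ⟨v₀⟩ := exists_place (K := K) (F := F)
  have habs : ∀ D : Divisor K F, ∃ D' : Divisor K F, 0 ≤ D' ∧ -D ≤ D' := by
    intro D
    refine ⟨D.mapRange (fun n => |n|) (by simp), ?_, ?_⟩
    · rw [Finsupp.le_def]
      intro v
      simp
    · rw [Finsupp.le_def]
      intro v
      simp only [Finsupp.neg_apply, Finsupp.mapRange_apply]
      exact neg_le_abs _
  have hex : ∀ i, ∃ D : Divisor K F, 0 ≤ D ∧ f i ∈ riemannRochSpace D := by
    intro i
    by_cases hf : f i = 0
    · exact ⟨0, le_rfl, by rw [hf]; exact Submodule.zero_mem _⟩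
    · obtain ⟨D', h0, h1⟩ := habs (dv (K := K) (f i) hf)
      refine ⟨D', h0, ?_⟩
      rw [mem_rr_of_ne hf]
      intro v
      have := Finsupp.le_def.mp h1 v
      rw [Finsupp.neg_apply, dv_apply] at this
      omega
  choose D hD0 hD using hex
  have hsum0 : 0 ≤ ∑ i, D i := Finset.sum_nonneg fun i _ => hD0 i
  have hdeg : (1 : ℤ) ≤ v₀.deg := by exact_mod_cast deg_pos v₀
  have hs0 : (0 : Divisor K F) ≤ Finsupp.single v₀ (c.toNat : ℤ) := by
    rw [Finsupp.le_def]
    intro v
    rw [Finsupp.zero_apply, Finsupp.single_apply]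
    split_ifs
    · exact Int.natCast_nonneg _
    · exact le_rfl
  refine ⟨∑ i, D i + Finsupp.single v₀ (c.toNat : ℤ), add_nonneg hsum0 hs0, ?_, ?_⟩
  · rw [map_add, Divisor.degree_single]
    have h1 := degree_nonneg hsum0
    have h2 : c ≤ c.toNat := Int.self_le_toNat c
    nlinarith [Int.natCast_nonneg c.toNat]
  · intro i
    refine rr_mono ?_ (hD i)
    calc D i ≤ ∑ i, D i := Finset.single_le_sum (fun j _ => hD0 j) (Finset.mem_univ i)
      _ ≤ _ := le_add_of_nonneg_right hs0

/-- in presence of `RRLarge` all Riemann-Roch spaces are finite dimensional. -/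
theorem finiteDimensional_rr [IsFF K F] [HasPrincipalDivisors K F] {g : ℤ} (hRR : RRLarge K F g)
    (D : Divisor K F) : FiniteDimensional K (riemannRochSpace D) := by
  classical
  obtain ⟨c, hc⟩ := hRR
  obtain ⟨v₀⟩ := exists_place (K := K) (F := F)
  have hdeg : (1 : ℤ) ≤ v₀.deg := by exact_mod_cast deg_pos v₀
  set n : ℕ := (c - Divisor.degree D).toNat with hn
  have hle : D ≤ D + Finsupp.single v₀ (n : ℤ) := by
    refine le_add_of_nonneg_right ?_
    rw [Finsupp.le_def]
    intro v
    rw [Finsupp.zero_apply, Finsupp.single_apply]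
    split_ifs
    · exact Int.natCast_nonneg _
    · exact le_rfl
  have h1 : c ≤ Divisor.degree (D + Finsupp.single v₀ (n : ℤ)) := by
    rw [map_add, Divisor.degree_single]
    have h2 : c - Divisor.degree D ≤ n := Int.self_le_toNat _
    nlinarith [Int.natCast_nonneg n]
  have := (hc _ h1).1
  exact Submodule.finiteDimensional_of_le (rr_mono hle)

end Tower

variable {L k F F₁ : Type*} [Field L] [Field k] [Field F] [Field F₁] [Algebra L F] [Algebra k F₁]

/-- **Key inequality.** -/
theorem Data.degree_le (𝔇 : Data L k F F₁) [IsFF L F] [IsFF k F₁] [HasPrincipalDivisors L F]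
    [Infinite k] {g : ℤ} (hRR : RRLarge L F g) {E : Divisor L F} (hE : 0 ≤ E)
    {D : Divisor k F₁} (hD : IsPoleDiv (𝔇.red (riemannRochSpace E)) D) :
    Divisor.degree D ≤ Divisor.degree E := by
  classical
  have hD0 : 0 ≤ D := by
    apply hD.zero_le_of_one_mem
    exact ⟨1, by simpa using one_mem_rr hE, map_one _⟩
  by_cases hS : D.support.Nonempty
  swap
  · rw [Finset.not_nonempty_iff_eq_empty, Finsupp.support_eq_empty] at hS
    rw [hS, map_zero]
    exact degree_nonneg hE
  -- generic element
  obtain ⟨fb, hfbΛ, hfb0, hfb⟩ := hD.exists_generic D.support hS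
  obtain ⟨f, hfE, hf⟩ := hfbΛ
  have hpos : ∀ v ∈ D.support, 0 < D v := by
    intro v hv
    have h1 := Finsupp.le_def.mp hD0 v
    rw [Finsupp.zero_apply] at h1
    exact lt_of_le_of_ne h1 (Ne.symm (Finsupp.mem_support_iff.mp hv))
  -- `x = 1/fb`
  set x : F₁ := fb⁻¹ with hx
  have hx0 : x ≠ 0 := inv_ne_zero hfb0
  have hxv : ∀ v ∈ D.support, v.ord x = D v := by
    intro v hv
    rw [hx, v.ord_inv, hfb v hv, neg_neg]
  have hxtr : Transcendental k x := by
    obtain ⟨v, hv⟩ := hS
    apply transcendental_of_ord_ne_zero v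
    rw [hxv v hv]
    exact (hpos v hv).ne'
  have hfin := finiteDimensional_adjoin_of_isFF (K := k) hxtr
  have h1 : Divisor.degree D ≤ finrank k⟮x⟯ F₁ := by
    refine le_trans (le_of_eq ?_) (sum_ord_mul_deg_le x hxtr D.support
      (fun v hv => by rw [hxv v hv]; exact hpos v hv))
    rw [degree_eq_sum]
    exact Finset.sum_congr rfl fun v hv => by rw [hxv v hv]
  refine h1.trans ?_
  -- the family `e_i f^j`
  set N := finrank k⟮x⟯ F₁ with hN
  let eb := Module.finBasis k⟮x⟯ F₁
  choose e he using fun i => 𝔇.res_surj (eb i)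
  obtain ⟨c, hc⟩ := hRR
  obtain ⟨E', hE'0, hE'c, hE'⟩ := exists_bound (K := L) (fun i => ((e i : 𝔇.O) : F)) (max c 0)
  -- linear independence over `k`
  let y : k⟮x⟯ := (⟨x, mem_adjoin_simple_self k x⟩ : k⟮x⟯)⁻¹
  have hyx : (y : F₁) = fb := by
    show ((⟨x, mem_adjoin_simple_self k x⟩ : k⟮x⟯)⁻¹ : k⟮x⟯).1 = fb
    rw [show (((⟨x, mem_adjoin_simple_self k x⟩ : k⟮x⟯)⁻¹ : k⟮x⟯) : F₁) = x⁻¹ from rfl, hx, inv_inv]
  have hytr : Transcendental k y := by
    intro halg
    apply hxtr
    have h2 : IsAlgebraic k (y : F₁) := halg.algebraMap (A := F₁)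
    rw [hyx] at h2
    exact h2.inv
  have hli : LinearIndependent k (fun p : ℕ × Fin N => y ^ p.1 • eb p.2) :=
    linearIndependent_smul (linearIndependent_pow_of_transcendental hytr) eb.linearIndependent
  have hli' : LinearIndependent k (fun p : ℕ × Fin N => 𝔇.res (f ^ p.1 * e p.2)) := by
    have h2 : (fun p : ℕ × Fin N => 𝔇.res (f ^ p.1 * e p.2))
        = fun p : ℕ × Fin N => y ^ p.1 • eb p.2 := by
      funext p
      rw [map_mul, map_pow, hf, he, ← hyx]
      rfl
    rw [h2]
    exact hli
  have hli'' := 𝔇.linearIndependent_of_res _ hli'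
  have hcount : ∀ m : ℕ, ((m : ℤ) + 1) * N ≤ Divisor.degree E' + m * Divisor.degree E + 1 - g := by
    intro m
    have hdegE := degree_nonneg hE
    have h2 : c ≤ Divisor.degree (E' + m • E) := by
      rw [map_add, map_nsmul, nsmul_eq_mul]
      have : max c 0 ≤ Divisor.degree E' := hE'c
      nlinarith [le_max_left c 0, Int.natCast_nonneg m]
    obtain ⟨hfd, hrk⟩ := hc _ h2
    -- the subfamily with `j ≤ m`
    let w : Fin (m + 1) × Fin N → riemannRochSpace (E' + m • E) := fun p =>
      ⟨((f ^ (p.1 : ℕ) * e p.2 : 𝔇.O) : F), by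
        push_cast
        rw [add_comm E']
        refine mul_mem_rr ?_ (hE' p.2)
        refine rr_mono ?_ (pow_mem_rr hfE p.1)
        exact nsmul_le_nsmul_left hE (by have := p.1.2; omega)⟩
    have hw : LinearIndependent L w := by
      apply LinearIndependent.of_comp (riemannRochSpace (E' + m • E)).subtype
      exact hli''.comp (fun p : Fin (m + 1) × Fin N => ((p.1 : ℕ), p.2)) (by
        rintro ⟨a, b⟩ ⟨a', b'⟩ h
        simp only [Prod.mk.injEq] at h
        exact Prod.ext (Fin.ext h.1) h.2)
    have h3 := hw.fintype_card_le_finrank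
    rw [Fintype.card_prod, Fintype.card_fin, Fintype.card_fin] at h3
    have h4 : (((m + 1) * N : ℕ) : ℤ) ≤ finrank L (riemannRochSpace (E' + m • E)) := by
      exact_mod_cast h3
    rw [hrk, map_add, map_nsmul, nsmul_eq_mul] at h4
    push_cast at h4
    linarith
  by_contra hlt
  push Not at hlt
  set m : ℕ := (Divisor.degree E' + 1 - g).toNat with hm
  have h5 := hcount m
  have h6 : Divisor.degree E' + 1 - g ≤ m := Int.self_le_toNat _
  have h7 := degree_nonneg hE
  nlinarith [Int.natCast_nonneg m]

end Fermat.Agent.Deuring
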