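import Fermat.Agent.Deuring.Tower

/-!
# Descent of the reduction map along a tower, compatibility with pullback and pushforward
-/

set_option autoImplicit false

noncomputable section

open AlgebraicCurve Module

namespace Fermat.Agent.Deuring

open Fermat.Agent.FunField Fermat.Agent.FunField.PlaceLemmas

variable {L k F F₁ M M₁ : Type*} [Field L] [Field k] [Field F] [Field F₁] [Field M] [Field M₁]
  [Algebra L F] [Algebra k F₁] [Algebra L M] [Algebra k M₁] [Algebra F M] [Algebra F₁ M₁]

theorem single_eq_zsmul {α : Type*} (a : α) (n : ℤ) :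
    Finsupp.single a n = n • Finsupp.single a (1 : ℤ) := by
  rw [Finsupp.smul_single, smul_eq_mul, mul_one]

namespace Tower

variable {DF : Data L k F F₁} {DM : Data L k M M₁} (T : Tower DF DM)

variable [IsScalarTower L F M] [IsScalarTower k F₁ M₁]
  [FiniteDimensional F M] [FiniteDimensional F₁ M₁]
  [IsFF L F] [IsFF L M] [IsFF k F₁] [IsFF k M₁]
  [HasPrincipalDivisors L F] [HasPrincipalDivisors L M]
  [HasPrincipalDivisors k F₁] [HasPrincipalDivisors k M₁]
  [IsAlgClosed L] [IsAlgClosed k]

include T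

/-- norms of sections over `M` are sections over `F`. -/
theorem norm_mem_red (hNF : Divisor.PushforwardNormFormula L F M)
    (hd : finrank F M = finrank F₁ M₁) {E : Divisor L M} {x : M₁}
    (hx : x ∈ DM.red (riemannRochSpace E)) :
    Algebra.norm F₁ x ∈ DF.red (riemannRochSpace (Divisor.pushforward F E)) := by
  classical
  obtain ⟨c, hc, rfl⟩ := hx
  obtain ⟨h, hN⟩ := T.norm_res hd c
  by_cases hc0 : (c : M) = 0
  · have : c = 0 := Subtype.ext hc0
    rw [this, map_zero, Algebra.norm_zero]
    exact Submodule.zero_mem _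
  refine ⟨⟨_, h⟩, ?_, hN⟩
  have hn0 : Algebra.norm F (c : M) ≠ 0 := Algebra.norm_ne_zero_iff.mpr hc0
  apply mem_rr_of_neg_le_dv hn0
  have h1 : Divisor.pushforward F (dv (K := L) (c : M) hc0) = dv (K := L) _ hn0 := by
    ext v
    rw [hNF _ hc0 _ (fun w => dv_apply hc0 w) v, dv_apply]
  rw [← h1, pushforward_eq_mapDomain, pushforward_eq_mapDomain]
  have h2 := mapDomain_mono (fun w : Place L M => w.restrict F) (neg_le_dv hc0 hc)
  refine le_trans (le_of_eq ?_) h2
  have h3 : Finsupp.mapDomain (fun w : Place L M => w.restrict F) (-E)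
      + Finsupp.mapDomain (fun w : Place L M => w.restrict F) E = 0 := by
    rw [← Finsupp.mapDomain_add, neg_add_cancel, Finsupp.mapDomain_zero]
  exact (eq_neg_of_add_eq_zero_left h3).symm

variable [FundamentalIdentity L F M] [FundamentalIdentity k F₁ M₁]

/-- The key computation: `r_* π^* (P|F) = π₁^* ((r P)|F₁)`. -/
theorem mapDomain_pullback_single (hNF : Divisor.PushforwardNormFormula L F M)
    (hNF₁ : Divisor.PushforwardNormFormula k F₁ M₁) (hd : finrank F M = finrank F₁ M₁)
    {gM : ℤ} (hRR₁ : RRLarge k M₁ gM) {r : Place L M → Place k M₁} (hr : DM.IsFullRed r)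
    (P : Place L M) :
    Finsupp.mapDomain r (Divisor.pullback M (Finsupp.single (P.restrict F) 1))
      = Divisor.pullback M₁ (Finsupp.single ((r P).restrict F₁) 1) := by
  classical
  symm
  obtain ⟨c₁, hc₁⟩ := hr.rr
  obtain ⟨c₂, hc₂⟩ := exists_norm_generic (F := F₁) hNF₁ hRR₁
  obtain ⟨n, hn⟩ : ∃ n : ℕ, max (max c₁ c₂) 1 ≤ n :=
    ⟨(max (max c₁ c₂) 1).toNat, Int.self_le_toNat _⟩
  have hn₁ : c₁ ≤ n := ((le_max_left _ _).trans (le_max_left _ _)).trans hn
  have hn₂ : c₂ ≤ n := ((le_max_right _ _).trans (le_max_left _ _)).trans hn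
  have hn₃ : (1 : ℤ) ≤ n := (le_max_right _ _).trans hn
  have hdegM : Divisor.degree (Finsupp.single P (n : ℤ)) = n := by
    rw [Divisor.degree_single, deg_eq_one P, Nat.cast_one, mul_one]
  have hdegM₁ : Divisor.degree (Finsupp.single (r P) (n : ℤ)) = n := by
    rw [Divisor.degree_single, deg_eq_one (r P), Nat.cast_one, mul_one]
  obtain ⟨cb, hcb, hcb0, hcbS⟩ := hc₂ (Finsupp.single (r P) (n : ℤ)) (by rw [hdegM₁]; exact hn₂)
    {(r P).restrict F₁} (Finset.singleton_nonempty _)
  have hord := hcbS _ (Finset.mem_singleton_self _)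
  rw [Divisor.pushforward_single, inertiaDeg_eq_one, Finsupp.single_eq_same, Nat.cast_one,
    mul_one] at hord
  have hcb' : cb ∈ DM.red (riemannRochSpace (Finsupp.single P (n : ℤ))) := by
    rw [hc₁ _ (by rw [hdegM]; exact hn₁), Finsupp.mapDomain_single]
    exact hcb
  obtain ⟨w, hw, hwN⟩ := T.norm_mem_red hNF hd hcb'
  rw [Divisor.pushforward_single, inertiaDeg_eq_one, Nat.cast_one, mul_one] at hw
  have hwb0 : DF.res w ≠ 0 := by
    rw [hwN]; exact Algebra.norm_ne_zero_iff.mpr hcb0
  have hw0 := DF.coe_ne_zero_of_res_ne_zero hwb0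
  -- divisors upstairs
  have hlift0 : DM.res (T.lift w) ≠ 0 := by
    rw [res_lift]
    exact (map_ne_zero_iff _ (algebraMap F₁ M₁).injective).mpr hwb0
  have hlw0 : algebraMap F M (w : F) ≠ 0 :=
    (map_ne_zero_iff _ (algebraMap F M).injective).mpr hw0
  have hlwb0 : algebraMap F₁ M₁ (DF.res w) ≠ 0 :=
    (map_ne_zero_iff _ (algebraMap F₁ M₁).injective).mpr hwb0
  have h1 := mapDomain_mono r (pullback_mono (F' := M) (neg_le_dv hw0 hw))
  rw [pullback_dv hw0 hlw0] at h1
  have h2 : Finsupp.mapDomain r (dv (K := L) (algebraMap F M (w : F)) hlw0)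
      = dv (K := k) (algebraMap F₁ M₁ (DF.res w)) hlwb0 := by
    ext Q
    rw [hr.div (T.lift w) hlift0 _ (fun P => dv_apply hlw0 P), dv_apply, res_lift]
  rw [h2, ← pullback_dv hwb0 hlwb0] at h1
  have h3 : -(Finsupp.single (P.restrict F) (n : ℤ))
      = (-(n : ℤ)) • Finsupp.single (P.restrict F) (1 : ℤ) := by
    rw [Finsupp.smul_single, smul_eq_mul, mul_one, Finsupp.single_neg]
  rw [h3, map_zsmul] at h1
  have h4 : Finsupp.mapDomain r
      ((-(n : ℤ)) • Divisor.pullback M (Finsupp.single (P.restrict F) (1 : ℤ)))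
      = (-(n : ℤ)) • Finsupp.mapDomain r
        (Divisor.pullback M (Finsupp.single (P.restrict F) (1 : ℤ))) :=
    Finsupp.mapDomain_smul _ _
  rw [h4] at h1
  set A := Finsupp.mapDomain r (Divisor.pullback M (Finsupp.single (P.restrict F) (1 : ℤ))) with hA
  have hA0 : 0 ≤ A := by
    apply mapDomain_nonneg
    have := pullback_mono (F' := M) (single_nonneg (P.restrict F) zero_le_one)
    rwa [map_zero] at this
  apply eq_of_le_of_degree_le
  · rw [Finsupp.le_def]
    intro y
    rw [Divisor.pullback_apply]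
    by_cases hy : y.restrict F₁ = (r P).restrict F₁
    · have h5 := Finsupp.le_def.mp h1 y
      rw [Finsupp.smul_apply, smul_eq_mul, Divisor.pullback_apply, dv_apply, hy, hwN,
        hord] at h5
      rw [hy, Finsupp.single_eq_same, mul_one]
      by_contra hlt
      push Not at hlt
      nlinarith
    · rw [Finsupp.single_eq_of_ne hy, mul_zero]
      have := Finsupp.le_def.mp hA0 y
      rwa [Finsupp.zero_apply] at this
  · rw [hA, degree_mapDomain, Divisor.degree_pullback, Divisor.degree_pullback, hd,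
      Divisor.degree_single, Divisor.degree_single, deg_eq_one, deg_eq_one]

/-- **Descent of the reduction map.** -/
theorem exists_descend (hNF : Divisor.PushforwardNormFormula L F M)
    (hNF₁ : Divisor.PushforwardNormFormula k F₁ M₁) (hd : finrank F M = finrank F₁ M₁)
    {gM : ℤ} (hRR₁ : RRLarge k M₁ gM) {r : Place L M → Place k M₁} (hr : DM.IsFullRed r) :
    ∃ r₀ : Place L F → Place k F₁,
      (∀ P : Place L M, r₀ (P.restrict F) = (r P).restrict F₁) ∧
      (∀ E : Divisor L F, Finsupp.mapDomain r (Divisor.pullback M E)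
        = Divisor.pullback M₁ (Finsupp.mapDomain r₀ E)) ∧ DF.IsRed r₀ := by
  classical
  suffices h : ∃ r₀ : Place L F → Place k F₁,
      (∀ P : Place L M, r₀ (P.restrict F) = (r P).restrict F₁) ∧
      (∀ E : Divisor L F, Finsupp.mapDomain r (Divisor.pullback M E)
        = Divisor.pullback M₁ (Finsupp.mapDomain r₀ E)) by
    obtain ⟨r₀, h₁, h₂⟩ := h
    refine ⟨r₀, h₁, h₂, ⟨fun f hf G hG Q => ?_⟩⟩
    obtain ⟨y, hy⟩ := restrict_surjective (K := k) (F := F₁) (F' := M₁) Q
    simp only at hy
    have hlift0 : DM.res (T.lift f) ≠ 0 := by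
      rw [res_lift]
      exact (map_ne_zero_iff _ (algebraMap F₁ M₁).injective).mpr hf
    have h3 := hr.div (T.lift f) hlift0 (Divisor.pullback M G) (fun P => by
      rw [coe_lift]
      exact Divisor.pullback_apply_eq_ord hG P) y
    rw [h₂ G, Divisor.pullback_apply, res_lift, Place.ord_restrict, hy] at h3
    have h4 : (y.ramificationIndex F₁ : ℤ) ≠ 0 := by
      have := y.ramificationIndex_pos (F := F₁)
      omega
    exact mul_left_cancel₀ h4 h3
  choose ab hab using restrict_surjective (K := L) (F := F) (F' := M)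
  simp only at hab
  refine ⟨fun P => (r (ab P)).restrict F₁, ?_, ?_⟩
  · intro P
    have h1 := T.mapDomain_pullback_single hNF hNF₁ hd hRR₁ hr P
    have h2 := T.mapDomain_pullback_single hNF hNF₁ hd hRR₁ hr (ab (P.restrict F))
    rw [hab, h1] at h2
    have h3 := pullback_injective h2
    exact (Finsupp.single_left_injective one_ne_zero h3).symm
  · intro E
    induction E using Finsupp.induction with
    | zero => simp
    | single_add P n E _ _ ih =>
      rw [map_add, Finsupp.mapDomain_add, ih, Finsupp.mapDomain_add, map_add,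
        Finsupp.mapDomain_single]
      congr 1
      have h1 := T.mapDomain_pullback_single hNF hNF₁ hd hRR₁ hr (ab P)
      rw [hab] at h1
      rw [single_eq_zsmul P n, map_zsmul, single_eq_zsmul _ n, map_zsmul, ← h1]
      exact Finsupp.mapDomain_smul _ _

end Tower

end Fermat.Agent.Deuring
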