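import Fermat.Agent.Deuring.Basic

/-!
# Pole divisors of finite dimensional subspaces of a function field
-/

set_option autoImplicit false

noncomputable section

open AlgebraicCurve Module

namespace Fermat.Agent.Deuring

open Fermat.Agent.FunField Fermat.Agent.FunField.PlaceLemmas

variable {K F : Type*} [Field K] [Field F] [Algebra K F]

/-- Divisor of a nonzero function. -/
def dv [HasPrincipalDivisors K F] (f : F) (hf : f ≠ 0) : Divisor K F :=
  (HasPrincipalDivisors.exists_divisor (K := K) f hf).choose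

theorem dv_apply [HasPrincipalDivisors K F] {f : F} (hf : f ≠ 0) (v : Place K F) :
    dv f hf v = v.ord f :=
  (HasPrincipalDivisors.exists_divisor (K := K) f hf).choose_spec.1 v

theorem degree_dv [HasPrincipalDivisors K F] {f : F} (hf : f ≠ 0) :
    Divisor.degree (dv (K := K) f hf) = 0 :=
  (HasPrincipalDivisors.exists_divisor (K := K) f hf).choose_spec.2

theorem mem_rr_of_ne {D : Divisor K F} {f : F} (hf : f ≠ 0) :
    f ∈ riemannRochSpace D ↔ ∀ v : Place K F, -D v ≤ v.ord f := by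
  rw [mem_riemannRochSpace_iff]
  exact forall_congr' fun v => ⟨fun h => h.resolve_left hf, Or.inr⟩

theorem rr_mono {D D' : Divisor K F} (h : D ≤ D') : riemannRochSpace D ≤ riemannRochSpace D' := by
  intro f hf
  rw [mem_riemannRochSpace_iff] at hf ⊢
  intro v
  rcases hf v with h0 | h1
  · exact Or.inl h0
  · have := Finsupp.le_def.mp h v
    exact Or.inr (by omega)

theorem mul_mem_rr {D D' : Divisor K F} {f g : F} (hf : f ∈ riemannRochSpace D)
    (hg : g ∈ riemannRochSpace D') : f * g ∈ riemannRochSpace (D + D') := by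
  rcases eq_or_ne f 0 with rfl | hf0
  · simp
  rcases eq_or_ne g 0 with rfl | hg0
  · simp
  rw [mem_rr_of_ne hf0] at hf
  rw [mem_rr_of_ne hg0] at hg
  rw [mem_rr_of_ne (mul_ne_zero hf0 hg0)]
  intro v
  rw [v.ord_mul hf0 hg0, Finsupp.add_apply]
  have h1 := hf v
  have h2 := hg v
  omega

theorem pow_mem_rr {D : Divisor K F} {f : F} (hf : f ∈ riemannRochSpace D) (n : ℕ) :
    f ^ n ∈ riemannRochSpace (n • D) := by
  rcases eq_or_ne f 0 with rfl | hf0
  · rcases eq_or_ne n 0 with rfl | hn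
    · rw [pow_zero, mem_rr_of_ne one_ne_zero]
      intro v
      simp
    · rw [zero_pow hn]
      exact Submodule.zero_mem _
  rw [mem_rr_of_ne hf0] at hf
  rw [mem_rr_of_ne (pow_ne_zero n hf0)]
  intro v
  rw [ord_pow, Finsupp.smul_apply]
  have h1 := hf v
  simp only [nsmul_eq_mul]
  nlinarith [Int.natCast_nonneg n]

theorem one_mem_rr {D : Divisor K F} (hD : 0 ≤ D) : (1 : F) ∈ riemannRochSpace D := by
  rw [mem_rr_of_ne one_ne_zero]
  intro v
  have := Finsupp.le_def.mp hD v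
  rw [Finsupp.zero_apply] at this
  rw [v.ord_one]
  omega

/-- multiplication by a function with divisor `G`. -/
theorem mul_mem_rr_iff {D G : Divisor K F} {f : F} (hf : f ≠ 0) (hG : ∀ v, G v = v.ord f)
    (h : F) : f * h ∈ riemannRochSpace D ↔ h ∈ riemannRochSpace (D + G) := by
  rcases eq_or_ne h 0 with rfl | hh
  · simp
  rw [mem_rr_of_ne (mul_ne_zero hf hh), mem_rr_of_ne hh]
  refine forall_congr' fun v => ?_
  rw [v.ord_mul hf hh, Finsupp.add_apply, hG v]
  constructor <;> intro h1 <;> omega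

/-- `D` is the pole divisor of the subspace `Λ`: the pointwise maximum of the pole orders. -/
structure IsPoleDiv (Λ : Submodule K F) (D : Divisor K F) : Prop where
  le : Λ ≤ riemannRochSpace D
  attained : ∀ v : Place K F, ∃ f ∈ Λ, f ≠ 0 ∧ v.ord f = -D v

namespace IsPoleDiv

variable {Λ Λ' Λ'' : Submodule K F} {D D' D'' : Divisor K F}

theorem mono (h : IsPoleDiv Λ D) (h' : IsPoleDiv Λ' D') (hle : Λ ≤ Λ') : D ≤ D' := by
  rw [Finsupp.le_def]
  intro v
  obtain ⟨f, hf, hf0, hv⟩ := h.attained v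
  have := (mem_rr_of_ne hf0).mp (h'.le (hle hf)) v
  omega

theorem unique (h : IsPoleDiv Λ D) (h' : IsPoleDiv Λ D') : D = D' :=
  le_antisymm (h.mono h' le_rfl) (h'.mono h le_rfl)

theorem add_le (h : IsPoleDiv Λ D) (h' : IsPoleDiv Λ' D') (h'' : IsPoleDiv Λ'' D'')
    (hmul : ∀ f ∈ Λ, ∀ g ∈ Λ', f * g ∈ Λ'') : D + D' ≤ D'' := by
  rw [Finsupp.le_def]
  intro v
  obtain ⟨f, hf, hf0, hv⟩ := h.attained v
  obtain ⟨g, hg, hg0, hv'⟩ := h'.attained v
  have := (mem_rr_of_ne (mul_ne_zero hf0 hg0)).mp (h''.le (hmul f hf g hg)) v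
  rw [v.ord_mul hf0 hg0] at this
  rw [Finsupp.add_apply]
  omega

theorem zero_le_of_one_mem (h : IsPoleDiv Λ D) (h1 : (1 : F) ∈ Λ) : 0 ≤ D := by
  rw [Finsupp.le_def]
  intro v
  have := (mem_rr_of_ne one_ne_zero).mp (h.le h1) v
  rw [v.ord_one] at this
  rw [Finsupp.zero_apply]
  omega

/-- scaling by a function with divisor `G`. -/
theorem smul (h : IsPoleDiv Λ D) {f : F} (hf : f ≠ 0) {G : Divisor K F}
    (hG : ∀ v, G v = v.ord f) (hΛ : ∀ x, x ∈ Λ' ↔ ∃ y ∈ Λ, x = f * y) :
    IsPoleDiv Λ' (D - G) := by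
  constructor
  · intro x hx
    obtain ⟨y, hy, rfl⟩ := (hΛ x).mp hx
    rw [mul_mem_rr_iff hf hG, sub_add_cancel]
    exact h.le hy
  · intro v
    obtain ⟨y, hy, hy0, hv⟩ := h.attained v
    refine ⟨f * y, (hΛ _).mpr ⟨y, hy, rfl⟩, mul_ne_zero hf hy0, ?_⟩
    rw [v.ord_mul hf hy0, hv, Finsupp.sub_apply, hG v]
    ring

theorem exists_isPoleDiv [HasPrincipalDivisors K F] (Λ : Submodule K F) [FiniteDimensional K Λ]
    (hΛ : Λ ≠ ⊥) : ∃ D, IsPoleDiv Λ D := by
  classical
  set n := finrank K Λ with hn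
  have hn0 : 0 < n := by
    rw [hn, Module.finrank_pos_iff]
    exact (Submodule.nontrivial_iff_ne_bot).mpr hΛ
  let b := Module.finBasis K Λ
  have hb0 : ∀ i, ((b i : Λ) : F) ≠ 0 := fun i h => b.ne_zero i (Subtype.ext h)
  have hne : (Finset.univ : Finset (Fin n)).Nonempty := ⟨⟨0, hn0⟩, Finset.mem_univ _⟩
  -- pointwise maximum of the pole orders
  let m : Place K F → ℤ := fun v => Finset.univ.sup' hne (fun i => -(v.ord ((b i : Λ) : F)))
  have hm : ∀ v, m v ≠ 0 → v ∈ Finset.univ.biUnion (fun i => (dv (K := K) _ (hb0 i)).support) := by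
    intro v hv
    obtain ⟨i, -, hi⟩ := Finset.exists_mem_eq_sup' hne (fun i => -(v.ord ((b i : Λ) : F)))
    rw [Finset.mem_biUnion]
    refine ⟨i, Finset.mem_univ _, ?_⟩
    rw [Finsupp.mem_support_iff, dv_apply]
    intro h0
    apply hv
    show Finset.univ.sup' hne _ = 0
    rw [hi, h0, neg_zero]
  let D : Divisor K F := Finsupp.onFinset _ m hm
  have hD : ∀ v, D v = m v := fun v => rfl
  refine ⟨D, ?_, ?_⟩
  · intro f hf
    have h1 : (⟨f, hf⟩ : Λ) ∈ Submodule.span K (Set.range b) := by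
      rw [b.span_eq]; trivial
    obtain ⟨c, hc⟩ := (Submodule.mem_span_range_iff_exists_fun K).mp h1
    have h2 : f = ∑ i, c i • ((b i : Λ) : F) := by
      have := congrArg Subtype.val hc
      simpa using this.symm
    rw [h2]
    refine Submodule.sum_mem _ fun i _ => Submodule.smul_mem _ _ ?_
    rw [mem_rr_of_ne (hb0 i)]
    intro v
    rw [hD]
    have : -(v.ord ((b i : Λ) : F)) ≤ m v :=
      Finset.le_sup' (fun i => -(v.ord ((b i : Λ) : F))) (Finset.mem_univ i)
    omega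
  · intro v
    obtain ⟨i, -, hi⟩ := Finset.exists_mem_eq_sup' hne (fun i => -(v.ord ((b i : Λ) : F)))
    refine ⟨_, (b i).2, hb0 i, ?_⟩
    rw [hD]
    show _ = -(Finset.univ.sup' hne (fun i => -(v.ord ((b i : Λ) : F))))
    rw [hi, neg_neg]

/-- a generic element has the maximal pole order at finitely many given places. -/
theorem exists_generic [Infinite K] (h : IsPoleDiv Λ D) (S : Finset (Place K F))
    (hS : S.Nonempty) : ∃ f ∈ Λ, f ≠ 0 ∧ ∀ v ∈ S, v.ord f = -D v := by
  classical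
  -- the subspaces of elements of `Λ` with smaller pole order at `v`
  let p : S → Submodule K Λ := fun v =>
    (riemannRochSpace (D - Finsupp.single v.1 1)).comap Λ.subtype
  have hp : ∀ v : S, p v ≠ ⊤ := by
    intro v htop
    obtain ⟨f, hf, hf0, hv⟩ := h.attained v.1
    have hmem : (⟨f, hf⟩ : Λ) ∈ p v := by rw [htop]; trivial
    have h1 : f ∈ riemannRochSpace (D - Finsupp.single v.1 1) := hmem
    have h2 := (mem_rr_of_ne hf0).mp h1 v.1
    rw [Finsupp.sub_apply, Finsupp.single_eq_same] at h2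
    omega
  have hex : ∃ x : Λ, ∀ v : S, x ∉ p v := by
    by_contra hcon
    push Not at hcon
    have hcov : ⋃ v : S, (p v : Set Λ) = Set.univ := by
      rw [Set.eq_univ_iff_forall]
      intro x
      obtain ⟨v, hv⟩ := hcon x
      exact Set.mem_iUnion.mpr ⟨v, hv⟩
    obtain ⟨v, hv⟩ := Subspace.exists_eq_top_of_iUnion_eq_univ hcov
    exact hp v hv
  obtain ⟨x, hx⟩ := hex
  have hx0 : (x : F) ≠ 0 := by
    intro h0
    obtain ⟨v, hv⟩ := hS
    apply hx ⟨v, hv⟩
    have : x = 0 := Subtype.ext h0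
    rw [this]
    exact Submodule.zero_mem _
  refine ⟨x, x.2, hx0, fun v hv => ?_⟩
  have h1 := (mem_rr_of_ne hx0).mp (h.le x.2)
  have h2 : ¬ (x : F) ∈ riemannRochSpace (D - Finsupp.single v 1) := hx ⟨v, hv⟩
  rw [mem_rr_of_ne hx0] at h2
  push Not at h2
  obtain ⟨w, hw⟩ := h2
  rw [Finsupp.sub_apply] at hw
  have h3 := h1 w
  by_cases hwv : w = v
  · subst hwv
    rw [Finsupp.single_eq_same] at hw
    omega
  · rw [Finsupp.single_eq_of_ne hwv] at hw
    omega

end IsPoleDiv

end Fermat.Agent.Deuring
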